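import Fermat.Agent.S16.P1Family
import Fermat.Prelude.Thm_ModularForm_sturm_bound_Gamma0
import Fermat.Prelude.Thm_CongruenceSubgroup_one_mem_strictPeriods_Gamma0

/-!
# S16, package PKG-13: `S₂(Γ₀(p)) = 0` for `p = 2, 3`

`ModularForm.sturm_bound_Gamma0` + `(Gamma0 p).index ≤ p + 1`
(the map `q ↦ idx p (Quotient.out q)⁻¹` from `SL(2,ℤ) ⧸ Gamma0 p` to `Option (ZMod p)` is injective by
`mul_inv_mem_Gamma0_of_idx_eq`), so `(2 * index).toNat / 12 = 0`, and `a₀ = 0` for a cusp form.
-/

set_option autoImplicit false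

namespace Fermat.Agent.S16

open UpperHalfPlane ModularForm CongruenceSubgroup
open scoped MatrixGroups ModularForm Manifold

theorem index_Gamma0_le (p : ℕ) [Fact p.Prime] : (Gamma0 p).index ≤ p + 1 := by
  classical
  have hφ : Function.Injective (fun q : SL(2, ℤ) ⧸ Gamma0 p =>
      idx p ((q.out : SL(2, ℤ))⁻¹)) := by
    intro q q' h
    have h1 := mul_inv_mem_Gamma0_of_idx_eq h.symm
    rw [inv_inv] at h1
    rw [← Quotient.out_eq' q, ← Quotient.out_eq' q']
    exact QuotientGroup.eq.mpr h1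
  calc (Gamma0 p).index = Nat.card (SL(2, ℤ) ⧸ Gamma0 p) := rfl
    _ ≤ Nat.card (Option (ZMod p)) := Nat.card_le_card_of_injective _ hφ
    _ = p + 1 := by
      rw [Nat.card_eq_fintype_card, Fintype.card_option, ZMod.card]

theorem cuspForm_eq_zero_of_lt_five {p : ℕ} [Fact p.Prime] (hp : p < 5)
    (f : CuspForm (Gamma0 p) 2) : f = 0 := by
  have hF : (CuspForm.toModularFormₗ f) = 0 := by
    apply ModularForm.sturm_bound_Gamma0 p
    intro n hn
    have hidx := index_Gamma0_le p
    have hn0 : n = 0 := by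
      have : ((2 : ℤ) * ((Gamma0 p).index : ℤ)).toNat / 12 = 0 := by
        apply Nat.div_eq_of_lt
        omega
      omega
    subst hn0
    exact CuspFormClass.qExpansion_coeff_zero f one_pos
      (CongruenceSubgroup.one_mem_strictPeriods_Gamma0 p)
  exact CuspForm.toModularFormₗ_injective (by rw [hF, _root_.map_zero])

end Fermat.Agent.S16
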