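import Mathlib

set_option autoImplicit false

namespace Fermat.Agent.S16

open Module

/-- Abstract duality between a commutative Hecke ring `T` acting on a finite dimensional complex
vector space `S` and `S` itself, through the functional `α` ("first `q`-coefficient"), in the
presence of a spanning set `L` on which the pairing is integral: every additive functional on `T`
is of the form `t ↦ α (t f)`. -/
theorem pairing_surj
    {S : Type*} [AddCommGroup S] [Module ℂ S] [FiniteDimensional ℂ S]
    {T : Type*} [CommRing T] (ρ : T →+* Module.End ℂ S)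
    (α : S →ₗ[ℂ] ℂ) (L : Set S)
    (hspan : Submodule.span ℂ L = ⊤)
    (hint : ∀ t : T, ∀ f ∈ L, ∃ m : ℤ, α (ρ t f) = m)
    (hnd : ∀ g : S, (∀ t : T, α (ρ t g) = 0) → g = 0)
    (hρ : Function.Injective ρ) :
    ∀ φ : T →ₗ[ℤ] ℂ, ∃ f : S, ∀ t, α (ρ t f) = φ t := by
  classical
  obtain ⟨b, hbL, hbspan, hbli⟩ := exists_linearIndependent ℂ L
  have hbtop : ⊤ ≤ Submodule.span ℂ (Set.range ((↑) : b → S)) := by
    rw [Subtype.range_coe, hbspan, hspan]
  let B : Module.Basis b ℂ S := Module.Basis.mk hbli hbtop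
  have hBc : ∀ c : b, B c = c := fun c => by simp [B]
  have : Finite b := Module.Finite.finite_basis B
  have : Fintype b := Fintype.ofFinite b
  have hch : ∀ (t : T) (c : b), ∃ m : ℤ, α (ρ t c) = m := fun t c => hint t c (hbL c.2)
  choose ψ hψ using hch
  let Ψ : T →ₗ[ℤ] (b → ℤ) := AddMonoidHom.toIntLinearMap
    (AddMonoidHom.mk' ψ (fun t t' => by
        funext c
        apply Int.cast_injective (α := ℂ)
        simp only [Pi.add_apply, Int.cast_add, ← hψ, map_add, LinearMap.add_apply]))
  have hΨ : ∀ t c, ((Ψ t c : ℤ) : ℂ) = α (ρ t c) := fun t c => (hψ t c).symm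
  have hΨinj : Function.Injective Ψ := by
    rw [injective_iff_map_eq_zero]
    intro t ht
    apply hρ
    rw [map_zero]
    have h1 : α ∘ₗ ρ t = 0 := by
      apply B.ext
      intro c
      rw [hBc, LinearMap.comp_apply, ← hΨ, ht]
      simp
    ext f
    apply hnd
    intro t'
    have h2 : ρ t' (ρ t f) = ρ t (ρ t' f) := by
      rw [← Module.End.mul_apply, ← Module.End.mul_apply, ← map_mul, ← map_mul, mul_comm]
    rw [h2]
    exact LinearMap.congr_fun h1 (ρ t' f)
  have hfin : Module.Finite ℤ T := Module.Finite.of_injective Ψ hΨinj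
  have htf : Module.IsTorsionFree ℤ T :=
    Function.Injective.moduleIsTorsionFree Ψ hΨinj (fun r m => map_smul Ψ r m)
  have hfree : Module.Free ℤ T := Module.free_of_finite_type_torsion_free'
  have hrank : finrank ℤ T ≤ finrank ℂ S := by
    calc finrank ℤ T ≤ finrank ℤ (b → ℤ) := LinearMap.finrank_le_finrank_of_injective hΨinj
      _ = Fintype.card b := Module.finrank_fintype_fun_eq_card ℤ
      _ = finrank ℂ S := (Module.finrank_eq_card_basis B).symm
  let Φ : S →ₗ[ℂ] (T →ₗ[ℤ] ℂ) :=
    { toFun := fun f => AddMonoidHom.toIntLinearMap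
        (AddMonoidHom.mk' (fun t => α (ρ t f)) (by intros; simp))
      map_add' := by intros; ext; simp
      map_smul' := by intros; ext; simp }
  have hΦ : ∀ f t, Φ f t = α (ρ t f) := fun f t => rfl
  have hΦinj : Function.Injective Φ := by
    rw [injective_iff_map_eq_zero]
    intro g hg
    apply hnd
    intro t
    rw [← hΦ, hg]
    rfl
  let bT := Module.Free.chooseBasis ℤ T
  let e : (Module.Free.ChooseBasisIndex ℤ T → ℂ) ≃ₗ[ℂ] (T →ₗ[ℤ] ℂ) := bT.constr ℂ
  have hfr : finrank ℂ (T →ₗ[ℤ] ℂ) = finrank ℤ T := by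
    rw [← e.finrank_eq, Module.finrank_fintype_fun_eq_card, Module.finrank_eq_card_chooseBasisIndex]
  have hfd : FiniteDimensional ℂ (T →ₗ[ℤ] ℂ) := Module.Finite.equiv e
  have hΦsurj : Function.Surjective Φ := by
    apply (LinearMap.injective_iff_surjective_of_finrank_eq_finrank _).1 hΦinj
    apply le_antisymm (LinearMap.finrank_le_finrank_of_injective hΦinj)
    rw [hfr]
    exact hrank
  intro φ
  obtain ⟨f, hf⟩ := hΦsurj φ
  exact ⟨f, fun t => by rw [← hΦ, hf]⟩

end Fermat.Agent.S16
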