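import Mathlib

set_option autoImplicit false

namespace Fermat.Agent.S16

open Finset

/-- Sum of the divisors of `k` which are prime to `p`. -/
def sigmaP (p k : ℕ) : ℤ := ∑ d ∈ k.divisors with ¬ p ∣ d, (d : ℤ)

theorem sum_divisors_filter_dvd (ℓ k : ℕ) (hℓ : 0 < ℓ) (F : ℕ → ℤ) (h : ℓ ∣ k) :
    ∑ d ∈ k.divisors with ℓ ∣ d, F d = ∑ d ∈ (k / ℓ).divisors, F (ℓ * d) := by
  obtain ⟨k', rfl⟩ := h
  rw [Nat.mul_div_cancel_left _ hℓ]
  have himg : (ℓ * k').divisors.filter (fun d => ℓ ∣ d) = k'.divisors.image (fun d => ℓ * d) := by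
    ext d
    simp only [mem_filter, Nat.mem_divisors, mem_image]
    constructor
    · rintro ⟨⟨hd, hne⟩, d', rfl⟩
      refine ⟨d', ⟨Nat.dvd_of_mul_dvd_mul_left hℓ hd, ?_⟩, rfl⟩
      rintro rfl
      simp at hne
    · rintro ⟨d', ⟨hd, hne⟩, rfl⟩
      exact ⟨⟨Nat.mul_dvd_mul_left ℓ hd, Nat.mul_ne_zero hℓ.ne' hne⟩, dvd_mul_right _ _⟩
  rw [himg, sum_image]
  intro a _ b _ hab
  exact Nat.eq_of_mul_eq_mul_left hℓ hab

theorem filter_not_dvd_divisors_mul (ℓ j : ℕ) (hℓ : ℓ.Prime) :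
    (j * ℓ).divisors.filter (fun d => ¬ ℓ ∣ d) = j.divisors.filter (fun d => ¬ ℓ ∣ d) := by
  ext d
  simp only [mem_filter, Nat.mem_divisors]
  constructor
  · rintro ⟨⟨hd, hne⟩, hnd⟩
    refine ⟨⟨?_, fun h => hne (by simp [h])⟩, hnd⟩
    have hcop : Nat.Coprime d ℓ := ((Nat.Prime.coprime_iff_not_dvd hℓ).2 hnd).symm
    exact hcop.dvd_of_dvd_mul_right hd
  · rintro ⟨⟨hd, hne⟩, hnd⟩
    exact ⟨⟨Dvd.dvd.mul_right hd ℓ, Nat.mul_ne_zero hne hℓ.ne_zero⟩, hnd⟩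

theorem sigmaP_one (p : ℕ) (hp : p.Prime) : sigmaP p 1 = 1 := by
  unfold sigmaP
  have : (Nat.divisors 1).filter (fun d => ¬ p ∣ d) = {1} := by
    ext d
    simp only [Nat.divisors_one, mem_filter, mem_singleton]
    constructor
    · exact fun h => h.1
    · rintro rfl
      exact ⟨rfl, by simpa using hp.one_lt.ne'⟩
  rw [this]
  simp

theorem sigmaP_mul_self (p j : ℕ) (hp : p.Prime) : sigmaP p (j * p) = sigmaP p j := by
  unfold sigmaP
  rw [filter_not_dvd_divisors_mul p j hp]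

theorem sigmaP_eq_sum (p k : ℕ) :
    sigmaP p k = ∑ d ∈ k.divisors, (if p ∣ d then (0 : ℤ) else (d : ℤ)) := by
  unfold sigmaP
  rw [sum_filter]
  refine sum_congr rfl fun d _ => ?_
  by_cases h : p ∣ d <;> simp [h]

theorem sigmaP_mul_prime (p ℓ j : ℕ) (hp : p.Prime) (hℓ : ℓ.Prime) (hne : ℓ ≠ p) :
    sigmaP p (j * ℓ) + (if ℓ ∣ j then (ℓ : ℤ) * sigmaP p (j / ℓ) else 0) =
      (1 + (ℓ : ℤ)) * sigmaP p j := by
  set G : ℕ → ℤ := fun d => if p ∣ d then (0 : ℤ) else (d : ℤ) with hG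
  have hGℓ : ∀ d, G (ℓ * d) = (ℓ : ℤ) * G d := by
    intro d
    have hiff : p ∣ ℓ * d ↔ p ∣ d := by
      constructor
      · intro h
        rcases (Nat.Prime.dvd_mul hp).1 h with h | h
        · exact absurd ((Nat.prime_dvd_prime_iff_eq hp hℓ).1 h).symm hne
        · exact h
      · exact fun h => Dvd.dvd.mul_left h ℓ
    simp only [hG, hiff]
    split_ifs <;> simp
  have hsplit : ∀ k : ℕ, ∑ d ∈ k.divisors, G d =
      ∑ d ∈ k.divisors with ℓ ∣ d, G d + ∑ d ∈ k.divisors with ¬ ℓ ∣ d, G d := fun k =>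
    (sum_filter_add_sum_filter_not _ _ _).symm
  have h1 : ∑ d ∈ (j * ℓ).divisors with ℓ ∣ d, G d = (ℓ : ℤ) * ∑ d ∈ j.divisors, G d := by
    rw [sum_divisors_filter_dvd ℓ (j * ℓ) hℓ.pos G (dvd_mul_left _ _),
      Nat.mul_div_cancel _ hℓ.pos, mul_sum]
    exact sum_congr rfl fun d _ => hGℓ d
  have h2 : ∑ d ∈ j.divisors with ℓ ∣ d, G d =
      if ℓ ∣ j then (ℓ : ℤ) * ∑ d ∈ (j / ℓ).divisors, G d else 0 := by
    split_ifs with hd
    · rw [sum_divisors_filter_dvd ℓ j hℓ.pos G hd, mul_sum]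
      exact sum_congr rfl fun d _ => hGℓ d
    · apply sum_eq_zero
      intro d hdm
      rw [mem_filter, Nat.mem_divisors] at hdm
      exact absurd (hdm.2.trans hdm.1.1) hd
  rw [sigmaP_eq_sum, sigmaP_eq_sum, sigmaP_eq_sum]
  have e1 := hsplit (j * ℓ)
  have e2 := hsplit j
  rw [filter_not_dvd_divisors_mul ℓ j hℓ, h1] at e1
  rw [h2] at e2
  split_ifs at e2 ⊢ with hd
  · linear_combination e1 - e2
  · linear_combination e1 - e2

/-- `σ'(k) = σ(k) - p σ(k/p)`. -/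
theorem sigmaP_eq_sigma_sub (p k : ℕ) (hp : p.Prime) :
    sigmaP p k = (∑ d ∈ k.divisors, (d : ℤ)) -
      (if p ∣ k then (p : ℤ) * ∑ d ∈ (k / p).divisors, (d : ℤ) else 0) := by
  have hsplit := (sum_filter_add_sum_filter_not k.divisors (fun d => p ∣ d)
    (fun d => (d : ℤ))).symm
  have h2 : ∑ d ∈ k.divisors with p ∣ d, (d : ℤ) =
      if p ∣ k then (p : ℤ) * ∑ d ∈ (k / p).divisors, (d : ℤ) else 0 := by
    split_ifs with hd
    · rw [sum_divisors_filter_dvd p k hp.pos (fun d => (d : ℤ)) hd, mul_sum]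
      exact sum_congr rfl fun d _ => by push_cast; ring
    · apply sum_eq_zero
      intro d hdm
      rw [mem_filter, Nat.mem_divisors] at hdm
      exact absurd (hdm.2.trans hdm.1.1) hd
  unfold sigmaP
  rw [hsplit, h2]
  ring

end Fermat.Agent.S16
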