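import Mathlib
import Fermat.Prelude.Def_CuspForm_HeckeLocal
import Fermat.Prelude.Def_CuspForm_HeckeEvalForms
import Fermat.Prelude.Def_HeckeGalois_EichlerShimura
import Fermat.Agent.S49.Lattice
import Fermat.Agent.S23.Main
import Fermat.Agent.S16.Sigma
import Fermat.Agent.S16.PairingSurj

set_option autoImplicit false

namespace Fermat.Agent.S16

open CongruenceSubgroup ModularFormClass CuspForm ModularCurve Fermat.Agent.S49

theorem card_eq_ringChar_of_surjective (Q : Type*) [CommRing Q]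
    (h : Function.Surjective (Int.castRingHom Q)) :
    Nat.card Q = ringChar Q ∧ Nonempty (Q ≃+* ZMod (ringChar Q)) := by
  have : CharP Q (ringChar Q) := ringChar.charP Q
  let φ := ZMod.castHom (dvd_refl (ringChar Q)) Q
  have hinj : Function.Injective φ := ZMod.castHom_injective Q
  have hsurj : Function.Surjective φ := fun x => by
    obtain ⟨c, rfl⟩ := h x
    exact ⟨(c : ZMod _), by simp [φ]⟩
  let e := RingEquiv.ofBijective φ ⟨hinj, hsurj⟩
  exact ⟨by rw [← Nat.card_congr e.toEquiv, Nat.card_zmod], ⟨e.symm⟩⟩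

theorem abstract_quot {R T : Type*} [CommRing R] [CommRing T] (π : R →+* T)
    (hπ : Function.Surjective π) (ε : R →+* ℤ) (I₀ : Ideal R) (hI₀ : ∀ r, r ∈ I₀ ↔ ε r = 0) :
    (∀ r, Ideal.Quotient.mk (Ideal.map π I₀) (π r) = ((ε r : ℤ) : T ⧸ Ideal.map π I₀)) ∧
    Function.Surjective (Int.castRingHom (T ⧸ Ideal.map π I₀)) ∧
    (∀ c : ℤ, (c : T ⧸ Ideal.map π I₀) = 0 → ∃ r, ε r = c ∧ π r = 0) := by
  have hK1 : ∀ r, Ideal.Quotient.mk (Ideal.map π I₀) (π r) =
      ((ε r : ℤ) : T ⧸ Ideal.map π I₀) := by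
    intro r
    have hmem : r - ((ε r : ℤ) : R) ∈ I₀ := by
      rw [hI₀, map_sub, map_intCast, Int.cast_id, sub_self]
    have h1 : π (r - ((ε r : ℤ) : R)) ∈ Ideal.map π I₀ := Ideal.mem_map_of_mem π hmem
    rw [map_sub] at h1
    rw [Ideal.Quotient.eq.2 h1, map_intCast, map_intCast]
  refine ⟨hK1, ?_, ?_⟩
  · intro x
    obtain ⟨t, rfl⟩ := Ideal.Quotient.mk_surjective x
    obtain ⟨r, rfl⟩ := hπ t
    exact ⟨ε r, by rw [hK1]; rfl⟩
  · intro c hc
    have h1 : (c : T) ∈ Ideal.map π I₀ := by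
      rw [← Ideal.Quotient.eq_zero_iff_mem, map_intCast]
      exact hc
    obtain ⟨r₀, hr₀, hr₀c⟩ := (Ideal.mem_map_iff_of_surjective π hπ).1 h1
    refine ⟨(c : R) - r₀, ?_, ?_⟩
    · rw [map_sub, map_intCast, (hI₀ r₀).1 hr₀, sub_zero, Int.cast_id]
    · rw [map_sub, hr₀c, map_intCast, sub_self]

theorem abstract_card {R T : Type*} [CommRing R] [CommRing T] [Module.Free ℤ T] (π : R →+* T)
    (hπ : Function.Surjective π) (ε : R →+* ℤ) (I₀ : Ideal R) (hI₀ : ∀ r, r ∈ I₀ ↔ ε r = 0)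
    (n : ℕ) (H1 : ∀ r, π r = 0 → (n : ℤ) ∣ ε r)
    (H2 : ∀ M : ℕ, (∃ h : T →ₗ[ℤ] ℤ, ∀ r, (M : ℤ) ∣ h (π r) - ε r) → M ∣ n) :
    Nat.card (T ⧸ Ideal.map π I₀) = n := by
  obtain ⟨hK1, hsurj, hK3⟩ := abstract_quot π hπ ε I₀ hI₀
  obtain ⟨hcard, ⟨e⟩⟩ := card_eq_ringChar_of_surjective _ hsurj
  rw [hcard]
  generalize hm : ringChar (T ⧸ Ideal.map π I₀) = m at e
  apply Nat.dvd_antisymm
  · apply H2
    let g : T →ₗ[ℤ] ZMod m :=
      ((e : _ →+* ZMod m).comp (Ideal.Quotient.mk (Ideal.map π I₀))).toAddMonoidHom.toIntLinearMap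
    let c : ℤ →ₗ[ℤ] ZMod m := (Int.castAddHom (ZMod m)).toIntLinearMap
    have hcsurj : Function.Surjective c := ZMod.intCast_surjective
    obtain ⟨h, hh⟩ := Module.projective_lifting_property c g hcsurj
    refine ⟨h, fun r => ?_⟩
    have h2 : ((h (π r) : ℤ) : ZMod m) = ((ε r : ℤ) : ZMod m) := by
      have h3 : c (h (π r)) = g (π r) := LinearMap.congr_fun hh (π r)
      have h4 : g (π r) = e (Ideal.Quotient.mk (Ideal.map π I₀) (π r)) := rfl
      have h5 : c (h (π r)) = ((h (π r) : ℤ) : ZMod m) := rfl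
      rw [← h5, h3, h4, hK1, map_intCast]
    rw [ZMod.intCast_eq_intCast_iff_dvd_sub] at h2
    obtain ⟨x, hx⟩ := h2
    exact ⟨-x, by linarith⟩
  · have hm0 : ((m : ℤ) : T ⧸ Ideal.map π I₀) = 0 := by
      rw [Int.cast_natCast, ← hm]
      exact CharP.cast_eq_zero _ _
    obtain ⟨r, er, hr⟩ := hK3 m hm0
    have := H1 r hr
    rw [er] at this
    exact_mod_cast this

variable (p : ℕ) [Fact p.Prime]

/-- There is a cusp form of level `p` congruent to the Eisenstein series modulo `M`. -/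
def CongEis (M : ℕ) : Prop :=
  ∃ f : CuspForm (Gamma0 p) 2, ∀ k : ℕ, 1 ≤ k →
    ∃ m : ℤ, qCoeff f k = (sigmaP p k : ℂ) + (M : ℂ) * (m : ℂ)

/-- The action of the abstract Hecke polynomial ring on cusp forms. -/
noncomputable def act : HeckeAlg →+* Module.End ℂ (CuspForm (Gamma0 p) 2) :=
  (heckeAlgebra p 2 ∅).val.toRingHom.comp (heckeEvalForms p 2)

/-- The Eisenstein evaluation. -/
noncomputable def eps : HeckeAlg →+* ℤ := (MvPolynomial.aeval (eisensteinSystem p)).toRingHom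

theorem act_apply (r : HeckeAlg) :
    act p r = ((heckeEvalForms p 2 r : heckeAlgebra p 2 ∅) :
      Module.End ℂ (CuspForm (Gamma0 p) 2)) := rfl

theorem act_heckeGen_of_not_dvd {ℓ : Nat.Primes} (h : ¬ (ℓ : ℕ) ∣ p) :
    act p (heckeGen ℓ) = heckeTLin 2 ℓ.2 h := by
  rw [act_apply, heckeEvalForms_heckeGen_of_not_dvd h, heckeAlgebra.coe_T]

theorem act_heckeGen_of_dvd {ℓ : Nat.Primes} (h : (ℓ : ℕ) ∣ p) :
    act p (heckeGen ℓ) = heckeULin 2 h := by
  rw [act_apply, heckeEvalForms_heckeGen_of_dvd h, heckeAlgebra.coe_U]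

theorem act_C_apply (a : ℤ) (f : CuspForm (Gamma0 p) 2) :
    act p (MvPolynomial.C a) f = (a : ℂ) • f := by
  have h : (MvPolynomial.C a : HeckeAlg) = (a : HeckeAlg) := by simp
  rw [h, map_intCast, Module.End.intCast_apply, Int.cast_smul_eq_zsmul]

theorem eps_heckeGen_of_not_dvd {ℓ : Nat.Primes} (h : ¬ (ℓ : ℕ) ∣ p) :
    eps p (heckeGen ℓ) = 1 + (ℓ : ℕ) := by
  have : eps p (heckeGen ℓ) = eisensteinSystem p ℓ := aeval_heckeGen _ ℓ
  rw [this, eisensteinSystem_of_not_dvd h]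

theorem eps_heckeGen_of_dvd {ℓ : Nat.Primes} (h : (ℓ : ℕ) ∣ p) :
    eps p (heckeGen ℓ) = 1 := by
  have : eps p (heckeGen ℓ) = eisensteinSystem p ℓ := aeval_heckeGen _ ℓ
  rw [this, eisensteinSystem_of_dvd h]

theorem eps_C (a : ℤ) : eps p (MvPolynomial.C a) = a := by
  simp [eps]

theorem mem_eisensteinIdeal_iff (r : HeckeAlg) : r ∈ eisensteinIdeal p ↔ eps p r = 0 :=
  mem_eigenIdeal_iff _ _

theorem heckeEvalForms_surjective : Function.Surjective (heckeEvalForms p 2) := by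
  rintro ⟨t, ht⟩
  induction ht using Algebra.adjoin_induction with
  | mem x hx =>
    rcases hx with ⟨ℓ, hℓ, hℓN, _, rfl⟩ | ⟨q, hqN, hq, _, rfl⟩
    · exact ⟨heckeGen ⟨ℓ, hℓ⟩, by
        rw [heckeEvalForms_heckeGen_of_not_dvd (ℓ := ⟨ℓ, hℓ⟩) hℓN]; rfl⟩
    · exact ⟨heckeGen ⟨q, hq⟩, by
        rw [heckeEvalForms_heckeGen_of_dvd (q := ⟨q, hq⟩) hqN]; rfl⟩
  | algebraMap a =>
    exact ⟨MvPolynomial.C a, by rw [heckeEvalForms_C]; rfl⟩
  | add x y hx hy ihx ihy =>
    obtain ⟨r, hr⟩ := ihx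
    obtain ⟨s, hs⟩ := ihy
    exact ⟨r + s, by rw [map_add, hr, hs]; rfl⟩
  | mul x y hx hy ihx ihy =>
    obtain ⟨r, hr⟩ := ihx
    obtain ⟨s, hs⟩ := ihy
    exact ⟨r * s, by rw [map_mul, hr, hs]; rfl⟩

/-- The operator `T_k`: the `k`-th coefficient is the first coefficient of `T_k g`, and the
Eisenstein eigenvalue of `T_k` is `σ'(k)`. -/
theorem exists_Tk (k : ℕ) (hk : 1 ≤ k) :
    ∃ r : HeckeAlg, (∀ g : CuspForm (Gamma0 p) 2, qCoeff g k = qCoeff (act p r g) 1) ∧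
      eps p r = sigmaP p k := by
  have hp : p.Prime := Fact.out
  induction k using Nat.strong_induction_on with
  | _ k ih =>
    rcases Nat.eq_or_lt_of_le hk with h1 | h1
    · subst h1
      exact ⟨1, fun g => by rw [map_one, Module.End.one_apply], by
        rw [map_one, sigmaP_one p hp]⟩
    · obtain ⟨ℓ, hℓ, j, rfl⟩ := Nat.exists_prime_and_dvd (n := k) (by omega)
      have hjpos : 1 ≤ j := by
        rcases Nat.eq_zero_or_pos j with h0 | h0
        · subst h0; simp at hk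
        · exact h0
      have hjlt : j < ℓ * j := by
        have := hℓ.two_le
        nlinarith
      obtain ⟨rj, hrj, erj⟩ := ih j hjlt hjpos
      by_cases hℓp : ℓ ∣ p
      · have hℓeq : ℓ = p := (Nat.prime_dvd_prime_iff_eq hℓ hp).1 hℓp
        refine ⟨rj * heckeGen ⟨ℓ, hℓ⟩, fun g => ?_, ?_⟩
        · rw [map_mul, Module.End.mul_apply, ← hrj, act_heckeGen_of_dvd p (ℓ := ⟨ℓ, hℓ⟩) hℓp,
            qc_heckeU hℓ.ne_zero, mul_comm]
        · rw [map_mul, erj, eps_heckeGen_of_dvd p (ℓ := ⟨ℓ, hℓ⟩) hℓp, mul_one, mul_comm, hℓeq,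
            sigmaP_mul_self p j hp]
      · have hne : ℓ ≠ p := fun h => hℓp (h ▸ dvd_rfl)
        have hsig := sigmaP_mul_prime p ℓ j hp hℓ hne
        by_cases hd : ℓ ∣ j
        · have hipos : 1 ≤ j / ℓ := Nat.div_pos (Nat.le_of_dvd hjpos hd) hℓ.pos
          have hilt : j / ℓ < ℓ * j := lt_of_le_of_lt (Nat.div_le_self _ _) hjlt
          obtain ⟨ri, hri, eri⟩ := ih (j / ℓ) hilt hipos
          rw [if_pos hd] at hsig
          refine ⟨rj * heckeGen ⟨ℓ, hℓ⟩ - MvPolynomial.C (ℓ : ℤ) * ri, fun g => ?_, ?_⟩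
          · have h2 := qc_heckeT hℓ hℓp g j
            rw [if_pos hd] at h2
            have hz : ((ℓ : ℂ)) ^ ((2 : ℤ) - 1) = (ℓ : ℂ) := by norm_num
            rw [hz] at h2
            have h3 : qCoeff (⇑(act p (rj * heckeGen ⟨ℓ, hℓ⟩ - MvPolynomial.C (ℓ : ℤ) * ri) g)) 1 =
                qCoeff (act p rj (heckeTLin 2 hℓ hℓp g)) 1 - (ℓ : ℂ) * qCoeff (act p ri g) 1 := by
              rw [map_sub, map_mul, map_mul, LinearMap.sub_apply, Module.End.mul_apply,
                Module.End.mul_apply, act_heckeGen_of_not_dvd p (ℓ := ⟨ℓ, hℓ⟩) hℓp, act_C_apply]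
              have h := (qcLin p 2 1).map_sub (act p rj (heckeTLin 2 hℓ hℓp g))
                ((((ℓ : ℤ) : ℂ)) • act p ri g)
              simp only [qcLin_apply] at h
              rw [h, qc_smul]
              push_cast
              rfl
            rw [h3, ← hrj, ← hri, h2, mul_comm ℓ j]
            ring
          · rw [map_sub, map_mul, map_mul, erj, eri, eps_C,
              eps_heckeGen_of_not_dvd p (ℓ := ⟨ℓ, hℓ⟩) hℓp, mul_comm ℓ j]
            push_cast
            linear_combination -hsig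
        · rw [if_neg hd] at hsig
          refine ⟨rj * heckeGen ⟨ℓ, hℓ⟩, fun g => ?_, ?_⟩
          · have h2 := qc_heckeT hℓ hℓp g j
            rw [if_neg hd, add_zero] at h2
            rw [map_mul, Module.End.mul_apply, ← hrj,
              act_heckeGen_of_not_dvd p (ℓ := ⟨ℓ, hℓ⟩) hℓp, h2, mul_comm]
          · rw [map_mul, erj, eps_heckeGen_of_not_dvd p (ℓ := ⟨ℓ, hℓ⟩) hℓp, mul_comm ℓ j]
            push_cast
            linear_combination -hsig

variable {p}

/-- All `q`-coefficients are integers divisible by `M`. -/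
def DivBy (M : ℕ) (g : CuspForm (Gamma0 p) 2) : Prop :=
  ∀ n : ℕ, ∃ m : ℤ, qCoeff g n = (M : ℂ) * (m : ℂ)

omit [Fact p.Prime] in
theorem DivBy.exists_smul {M : ℕ} {g : CuspForm (Gamma0 p) 2} (hg : DivBy M g) :
    ∃ h ∈ CuspForm.intLattice p 2, g = (M : ℂ) • h := by
  rcases Nat.eq_zero_or_pos M with rfl | hM
  · refine ⟨0, zero_mem _, ?_⟩
    rw [smul_zero]
    apply qc_ext
    intro n
    obtain ⟨m, hm⟩ := hg n
    simpa using hm
  · have hM' : (M : ℂ) ≠ 0 := by exact_mod_cast hM.ne'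
    refine ⟨(M : ℂ)⁻¹ • g, ?_, ?_⟩
    · rw [mem_intLattice_iff]
      intro n
      obtain ⟨m, hm⟩ := hg n
      refine ⟨m, ?_⟩
      rw [qc_smul, hm]
      field_simp
    · rw [smul_smul, mul_inv_cancel₀ hM', one_smul]

omit [Fact p.Prime] in
theorem divBy_smul_of_mem {M : ℕ} {h : CuspForm (Gamma0 p) 2}
    (hh : h ∈ CuspForm.intLattice p 2) : DivBy M ((M : ℂ) • h) := by
  intro n
  obtain ⟨m, hm⟩ := (mem_intLattice_iff h).1 hh n
  exact ⟨m, by rw [qc_smul, hm]⟩

theorem DivBy.act {M : ℕ} {g : CuspForm (Gamma0 p) 2} (hg : DivBy M g) (r : HeckeAlg) :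
    DivBy M (act p r g) := by
  obtain ⟨h, hh, rfl⟩ := hg.exists_smul
  rw [map_smul]
  exact divBy_smul_of_mem
    (CuspForm.mem_intLattice_of_mem_heckeAlgebra one_le_two (heckeEvalForms p 2 r).2 hh)

omit [Fact p.Prime] in
theorem divBy_zero (M : ℕ) : DivBy M (0 : CuspForm (Gamma0 p) 2) := by
  intro n
  refine ⟨0, ?_⟩
  have := (qcLin p 2 n).map_zero
  simpa using this

omit [Fact p.Prime] in
theorem DivBy.add {M : ℕ} {g g' : CuspForm (Gamma0 p) 2} (hg : DivBy M g) (hg' : DivBy M g') :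
    DivBy M (g + g') := by
  intro n
  obtain ⟨m, hm⟩ := hg n
  obtain ⟨m', hm'⟩ := hg' n
  exact ⟨m + m', by rw [qc_add, hm, hm']; push_cast; ring⟩

omit [Fact p.Prime] in
theorem DivBy.int_smul {M : ℕ} {g : CuspForm (Gamma0 p) 2} (hg : DivBy M g) (a : ℤ) :
    DivBy M ((a : ℂ) • g) := by
  intro n
  obtain ⟨m, hm⟩ := hg n
  exact ⟨a * m, by rw [qc_smul, hm]; push_cast; ring⟩

omit [Fact p.Prime] in
theorem qc_sub_smul (g f : CuspForm (Gamma0 p) 2) (a : ℂ) (n : ℕ) :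
    qCoeff (⇑(g - a • f)) n = qCoeff g n - a * qCoeff f n := by
  have h := (qcLin p 2 n).map_sub g (a • f)
  simp only [qcLin_apply] at h
  rw [h, qc_smul]

/-- A form congruent to the Eisenstein series modulo `M` is an eigenvector modulo `M` with the
Eisenstein eigenvalues. -/
theorem divBy_act_sub {M : ℕ} {f : CuspForm (Gamma0 p) 2}
    (hf : ∀ k : ℕ, 1 ≤ k → ∃ m : ℤ, qCoeff f k = (sigmaP p k : ℂ) + (M : ℂ) * (m : ℂ))
    (r : HeckeAlg) : DivBy M (act p r f - ((eps p r : ℤ) : ℂ) • f) := by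
  have hp : p.Prime := Fact.out
  choose! d hd using hf
  induction r using MvPolynomial.induction_on with
  | C a =>
    rw [act_C_apply, eps_C, sub_self]
    exact divBy_zero M
  | add r s hr hs =>
    have := hr.add hs
    convert this using 1
    rw [map_add, map_add, LinearMap.add_apply]
    push_cast
    rw [add_smul]
    abel
  | mul_X r ℓ hr =>
    have hbase : DivBy M (act p (heckeGen ℓ) f - ((eps p (heckeGen ℓ) : ℤ) : ℂ) • f) := by
      intro n
      rw [qc_sub_smul]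
      rcases Nat.eq_zero_or_pos n with rfl | hn
      · refine ⟨0, ?_⟩
        rw [qc_at_zero, qc_at_zero]
        simp
      have hnℓ : 1 ≤ n * (ℓ : ℕ) := Nat.mul_pos hn ℓ.2.pos
      by_cases hℓp : (ℓ : ℕ) ∣ p
      · have hℓeq : (ℓ : ℕ) = p := (Nat.prime_dvd_prime_iff_eq ℓ.2 hp).1 hℓp
        rw [act_heckeGen_of_dvd p hℓp, eps_heckeGen_of_dvd p hℓp, qc_heckeU ℓ.2.ne_zero,
          hd _ hnℓ, hd _ hn, hℓeq, sigmaP_mul_self p n hp]
        refine ⟨d (n * p) - d n, ?_⟩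
        push_cast
        ring
      · have hne : (ℓ : ℕ) ≠ p := fun h => hℓp (h ▸ dvd_rfl)
        have hsig := sigmaP_mul_prime p ℓ n hp ℓ.2 hne
        have hz : (((ℓ : ℕ) : ℂ)) ^ ((2 : ℤ) - 1) = ((ℓ : ℕ) : ℂ) := by norm_num
        rw [act_heckeGen_of_not_dvd p hℓp, eps_heckeGen_of_not_dvd p hℓp, qc_heckeT, hz,
          hd _ hnℓ, hd _ hn]
        by_cases hdv : (ℓ : ℕ) ∣ n
        · have hipos : 1 ≤ n / (ℓ : ℕ) := Nat.div_pos (Nat.le_of_dvd hn hdv) ℓ.2.pos
          rw [if_pos hdv, hd _ hipos]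
          rw [if_pos hdv] at hsig
          refine ⟨d (n * ℓ) + ℓ * d (n / ℓ) - (1 + ℓ) * d n, ?_⟩
          have hsig' : ((sigmaP p (n * ℓ) : ℤ) : ℂ) + ((ℓ : ℕ) : ℂ) * ((sigmaP p (n / ℓ) : ℤ) : ℂ) =
              (1 + ((ℓ : ℕ) : ℂ)) * ((sigmaP p n : ℤ) : ℂ) := by exact_mod_cast hsig
          push_cast
          linear_combination hsig'
        · rw [if_neg hdv]
          rw [if_neg hdv] at hsig
          refine ⟨d (n * ℓ) - (1 + ℓ) * d n, ?_⟩
          have hsig' : ((sigmaP p (n * ℓ) : ℤ) : ℂ) + 0 =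
              (1 + ((ℓ : ℕ) : ℂ)) * ((sigmaP p n : ℤ) : ℂ) := by exact_mod_cast hsig
          push_cast
          linear_combination hsig'
    have h1 := (hbase.act r).add (hr.int_smul (eps p (heckeGen ℓ)))
    convert h1 using 1
    have hX : (MvPolynomial.X ℓ : HeckeAlg) = heckeGen ℓ := rfl
    rw [hX, map_mul, map_mul, Module.End.mul_apply, map_sub, map_smul, smul_sub, smul_smul]
    push_cast
    rw [mul_comm ((eps p r : ℤ) : ℂ)]
    abel

variable (p)

theorem hasIntegralBasis : CuspForm.HasIntegralBasis p := by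
  unfold CuspForm.HasIntegralBasis
  rw [qIntegralSet_eq]
  exact Fermat.Agent.S23.hasIntegralStructure p 2

/-- Every additive functional on the Hecke algebra is `t ↦ a₁(t f)`. -/
theorem exists_form_of_functional (φ : heckeAlgebra p 2 ∅ →ₗ[ℤ] ℂ) :
    ∃ f : CuspForm (Gamma0 p) 2, ∀ t : heckeAlgebra p 2 ∅,
      qCoeff ((t : Module.End ℂ (CuspForm (Gamma0 p) 2)) f) 1 = φ t := by
  have h := hasIntegralBasis p
  have hfd := finiteDimensional_of_hasIntegralBasis h
  exact pairing_surj (S := CuspForm (Gamma0 p) 2) (T := CuspForm.heckeAlgebra p 2 ∅)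
    (CuspForm.heckeAlgebra p 2 ∅).val.toRingHom (qcLin p 2 1) (CuspForm.intLattice p 2 : Set _)
    (by rw [← qIntegralSet_eq]; exact h)
    (fun t f hf => (mem_intLattice_iff _).1
      (CuspForm.mem_intLattice_of_mem_heckeAlgebra one_le_two t.2 hf) 1)
    (fun g hg => eq_zero_of_forall_qc_one g fun t ht => hg ⟨t, ht⟩)
    Subtype.val_injective φ

/-- **Duality reduction for S16.** -/
theorem card_eq_of_congEis (n : ℕ) (hA : CongEis p n) (hB : ∀ M : ℕ, CongEis p M → M ∣ n) :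
    Nat.card (↥(heckeLatticeAlgebra p ∅) ⧸
        Ideal.map ((latticeRestrictHom p ∅).toRingHom.comp (heckeEvalForms p 2))
          (eisensteinIdeal p)) = n := by
  have hint : HasIntegralStructure p 2 := Fermat.Agent.S23.hasIntegralStructure p 2
  have hπsurj : Function.Surjective
      ((latticeRestrictHom p ∅).toRingHom.comp (heckeEvalForms p 2)) :=
    (latticeRestrictHom_surjective p ∅).comp (heckeEvalForms_surjective p)
  refine abstract_card _ hπsurj (eps p) (eisensteinIdeal p) (mem_eisensteinIdeal_iff p) n ?_ ?_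
  · -- `H1`
    intro r h2
    have h3 : heckeEvalForms p 2 r = 0 := by
      apply (latticeRestrictHom_bijective p ∅ hint).1
      rw [map_zero]
      exact h2
    have hr : act p r = 0 := by
      rw [act_apply, h3]
      rfl
    obtain ⟨f, hf⟩ := hA
    obtain ⟨x, hx⟩ := divBy_act_sub hf r 1
    obtain ⟨y, hy⟩ := hf 1 le_rfl
    rw [qc_sub_smul, hr, hy, sigmaP_one p Fact.out] at hx
    have h0 : qCoeff (⇑((0 : Module.End ℂ (CuspForm (Gamma0 p) 2)) f)) 1 = 0 := by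
      have := (qcLin p 2 1).map_zero
      simpa using this
    rw [h0] at hx
    have h7 : (0 : ℤ) - (eps p r) * (1 + (n : ℤ) * y) = (n : ℤ) * x := by exact_mod_cast hx
    exact ⟨-x - eps p r * y, by linarith⟩
  · -- `H2`
    rintro M ⟨h, hh⟩
    apply hB
    let φ : heckeAlgebra p 2 ∅ →ₗ[ℤ] ℂ :=
      (Int.castAddHom ℂ).toIntLinearMap ∘ₗ h ∘ₗ (latticeRestrictHom p ∅).toLinearMap
    obtain ⟨f, hf⟩ := exists_form_of_functional p φ
    refine ⟨f, fun k hk => ?_⟩
    obtain ⟨r, hr, er⟩ := exists_Tk p k hk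
    have h1 : qCoeff f k =
        ((h (((latticeRestrictHom p ∅).toRingHom.comp (heckeEvalForms p 2)) r) : ℤ) : ℂ) := by
      rw [hr f, act_apply, hf]
      rfl
    obtain ⟨x, hx⟩ := hh r
    refine ⟨x, ?_⟩
    rw [h1]
    have h6 : h (((latticeRestrictHom p ∅).toRingHom.comp (heckeEvalForms p 2)) r) =
        sigmaP p k + (M : ℤ) * x := by rw [← er]; linarith
    rw [h6]
    push_cast
    ring

end Fermat.Agent.S16
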