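import Fermat.Agent.S16.Upper.Setup

/-!
# S16 lower bound, package PKG-12: from `θ` to a cusp form congruent to `δ` modulo `n`

`r = gcd(p-1,12)`, `n = (p-1)/r`.  `θ = 1 + 2 v`.  `(12/r)(e' - c θ) = (12/r) δ - n v`.
`gcd(12/r, n) = 1`: choose `s` with `s (12/r) ≡ 1 (mod n)`; `f₀ = s (12/r) (e' - c θ)`.
Cuspidality: `a₀ = 0` at `∞`; at the other cusp `B = -(1/p) U_p A` (`TwoCusp.weight_two`) has
`b₀ = 0`; `TwoCusp.exists_cuspForm`.
-/

set_option autoImplicit false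

namespace Fermat.Agent.S16

open UpperHalfPlane ModularForm CongruenceSubgroup ModularFormClass Fermat.Agent.S23
open scoped MatrixGroups ModularForm Manifold

theorem lower_bound {p : ℕ} [Fact p.Prime] (h5 : 5 ≤ p)
    (hθ : ∃ θ : ModularForm (Gamma0 p) 2, (qExpansion 1 θ).coeff 0 = 1 ∧
      ∀ k : ℕ, 1 ≤ k → ∃ m : ℤ, (qExpansion 1 θ).coeff k = 2 * (m : ℂ)) :
    ∃ f : CuspForm (Gamma0 p) 2, IsCongEis p ((p - 1) / Nat.gcd (p - 1) 12) f := by
  obtain ⟨θ, hθ0, hθk⟩ := hθ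
  obtain ⟨E, hE0, hEk⟩ := exists_eisP p
  -- arithmetic
  set r := Nat.gcd (p - 1) 12 with hr
  set n := (p - 1) / r with hn
  set t := 12 / r with ht
  have hr0 : 0 < r := Nat.gcd_pos_of_pos_right _ (by norm_num)
  have hnr : n * r = p - 1 := Nat.div_mul_cancel (Nat.gcd_dvd_left _ _)
  have htr : t * r = 12 := Nat.div_mul_cancel (Nat.gcd_dvd_right _ _)
  have hcop : Nat.Coprime n t := Nat.coprime_div_gcd_div_gcd hr0
  obtain ⟨b, a, hab⟩ := Nat.isCoprime_iff_coprime.2 hcop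
  have habC : (b : ℂ) * n + (a : ℂ) * t = 1 := by exact_mod_cast congrArg (Int.cast : ℤ → ℂ) hab
  have hrC : (r : ℂ) ≠ 0 := Nat.cast_ne_zero.2 hr0.ne'
  have hnrC : (n : ℂ) * r = (p : ℂ) - 1 := by
    have h1 : 1 ≤ p := by omega
    rw [← Nat.cast_mul, hnr, Nat.cast_sub h1, Nat.cast_one]
  have htrC : (t : ℂ) * r = 12 := by
    rw [← Nat.cast_mul, htr]; norm_num
  -- the form
  obtain ⟨B₁, h₁⟩ := TwoCusp.exists_of_modularForm E
  obtain ⟨B₂, h₂⟩ := TwoCusp.exists_of_modularForm θ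
  have h₃ := ((h₁.sub (h₂.smul (((p : ℂ) - 1) / 24))).smul ((a : ℂ) * t))
  set A := ((a : ℂ) * t) • (qExpansion 1 E - (((p : ℂ) - 1) / 24) • qExpansion 1 θ) with hA
  have hA0 : PowerSeries.coeff 0 A = 0 := by
    rw [hA, PowerSeries.coeff_smul, map_sub, PowerSeries.coeff_smul, hE0, hθ0]
    simp
  have hB := h₃.weight_two.1
  obtain ⟨f, hf⟩ := h₃.exists_cuspForm hA0 (by
    rw [hB, PowerSeries.coeff_smul, coeff_Up, mul_zero, hA0, smul_zero])
  refine ⟨f, fun k hk => ?_⟩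
  obtain ⟨m, hm⟩ := hθk k hk
  refine ⟨-b * sigmaP p k - a * m, ?_⟩
  rw [qCoeff, hf, hA, PowerSeries.coeff_smul, map_sub, PowerSeries.coeff_smul, hEk k hk, hm]
  simp only [smul_eq_mul]
  push_cast
  have key : (t : ℂ) * (((p : ℂ) - 1) / 24 * 2) = n := by
    rw [← hnrC]
    have : (24 : ℂ) = 2 * (t * r) := by rw [htrC]; norm_num
    rw [this]
    have ht0 : (t : ℂ) ≠ 0 := by
      intro h
      rw [h, zero_mul] at htrC
      norm_num at htrC
    field_simp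
  linear_combination (sigmaP p k : ℂ) * habC - (a : ℂ) * m * key

end Fermat.Agent.S16
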