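/-
S16: "Sturm bound modulo anything" in level one (Victor Miller basis in disguise):
if the first `k/12 + 1` coefficients of a level one form lie in an additive subgroup `J ≤ ℂ`,
then all of them do.
-/
import Fermat.Agent.S23.LevelOne

set_option autoImplicit false

open UpperHalfPlane ModularForm
open scoped MatrixGroups Manifold

namespace Fermat.Agent.S16

open EisensteinSeries ModularFormClass Fermat.Agent.S23

section PowerSeries

/-- Multiplication by an integral series preserves "the first `N+1` coefficients lie in `J`". -/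
theorem coeff_int_mul_mem (J : AddSubgroup ℂ) {P p : PowerSeries ℂ} (hP : P ∈ intSeries) (N : ℕ)
    (hp : ∀ n ≤ N, PowerSeries.coeff n p ∈ J) : ∀ n ≤ N, PowerSeries.coeff n (P * p) ∈ J := by
  intro n hn
  rw [PowerSeries.coeff_mul]
  refine J.sum_mem fun ij hij => ?_
  obtain ⟨m, hm⟩ := (mem_intSeries_iff.1 hP) ij.1
  rw [hm]
  have h1 : (m : ℂ) * PowerSeries.coeff ij.2 p = m • PowerSeries.coeff ij.2 p := by simp
  rw [h1]
  have h2 : ij.2 ≤ n := by
    have := Finset.HasAntidiagonal.mem_antidiagonal.1 hij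
    omega
  exact J.zsmul_mem (hp _ (h2.trans hn)) m

theorem coeff_int_mul_mem' (J : AddSubgroup ℂ) {P p : PowerSeries ℂ} (hP : P ∈ intSeries)
    (hp : ∀ n, PowerSeries.coeff n p ∈ J) : ∀ n, PowerSeries.coeff n (P * p) ∈ J :=
  fun n => coeff_int_mul_mem J hP n (fun m _ => hp m) n le_rfl

/-- An integral series with `a₀ = 0`, `a₁ = 1` is `X` times a unit of `ℤ⟦X⟧`. -/
theorem exists_int_mul_eq_X {D : PowerSeries ℂ} (hD : D ∈ intSeries)
    (h0 : PowerSeries.coeff 0 D = 0) (h1 : PowerSeries.coeff 1 D = 1) :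
    ∃ W ∈ intSeries, W * D = PowerSeries.X := by
  obtain ⟨Dz, rfl⟩ := hD
  have h0' : PowerSeries.coeff 0 Dz = 0 := by
    have : ((PowerSeries.coeff 0 Dz : ℤ) : ℂ) = 0 := by simpa using h0
    exact_mod_cast this
  have h1' : PowerSeries.coeff 1 Dz = 1 := by
    have : ((PowerSeries.coeff 1 Dz : ℤ) : ℂ) = 1 := by simpa using h1
    exact_mod_cast this
  obtain ⟨U, hU⟩ : PowerSeries.X ∣ Dz := by
    rw [PowerSeries.X_dvd_iff]; simpa using h0'
  have hU0 : PowerSeries.constantCoeff U = 1 := by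
    have := h1'
    rw [hU, show (1 : ℕ) = 0 + 1 from rfl, PowerSeries.coeff_succ_X_mul] at this
    simpa using this
  have hunit : IsUnit U := by
    rw [PowerSeries.isUnit_iff_constantCoeff, hU0]; exact isUnit_one
  obtain ⟨u, rfl⟩ := hunit
  refine ⟨PowerSeries.map (Int.castRingHom ℂ) (↑u⁻¹ : PowerSeries ℤ), ⟨_, rfl⟩, ?_⟩
  rw [← map_mul, hU, mul_left_comm, Units.inv_mul, mul_one, PowerSeries.map_X]

end PowerSeries

section Delta

/-- `∑ σ_k(n) Xⁿ` as an integral power series. -/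
noncomputable def sigSeries (k : ℕ) : PowerSeries ℤ :=
  PowerSeries.mk fun n => (ArithmeticFunction.sigma k n : ℤ)

theorem ofNat_mul_coeff (c : ℤ) (P : PowerSeries ℤ) (n : ℕ) :
    PowerSeries.coeff n ((c : PowerSeries ℤ) * P) = c * PowerSeries.coeff n P := by
  have : (c : PowerSeries ℤ) = PowerSeries.C c := by simp
  rw [this, PowerSeries.coeff_C_mul]

theorem E4_qExpansion_eq :
    qExpansion 1 E₄ = PowerSeries.map (Int.castRingHom ℂ) (1 + ((240 : ℤ) : PowerSeries ℤ) * sigSeries 3) := by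
  ext n
  rw [E_qExpansion_coeff _ ⟨2, rfl⟩, PowerSeries.coeff_map, map_add, ofNat_mul_coeff,
    PowerSeries.coeff_one, sigSeries, PowerSeries.coeff_mk]
  split_ifs with h
  · subst h; simp
  · norm_num [show bernoulli 4 = -1 / 30 by decide +kernel]

theorem E6_qExpansion_eq :
    qExpansion 1 E₆ = PowerSeries.map (Int.castRingHom ℂ) (1 + ((-504 : ℤ) : PowerSeries ℤ) * sigSeries 5) := by
  ext n
  rw [E_qExpansion_coeff _ ⟨3, rfl⟩, PowerSeries.coeff_map, map_add, ofNat_mul_coeff,
    PowerSeries.coeff_one, sigSeries, PowerSeries.coeff_mk]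
  split_ifs with h
  · subst h; simp
  · norm_num [show bernoulli 6 = 1 / 42 by decide +kernel]

theorem twelve_dvd_aux (d : ℤ) : (12 : ℤ) ∣ 5 * d ^ 3 + 7 * d ^ 5 := by
  have h : ∀ x : ZMod 12, 5 * x ^ 3 + 7 * x ^ 5 = 0 := by decide
  have h2 := h (d : ZMod 12)
  have h3 : ((5 * d ^ 3 + 7 * d ^ 5 : ℤ) : ZMod 12) = 0 := by
    push_cast
    exact h2
  exact (ZMod.intCast_zmod_eq_zero_iff_dvd _ 12).1 h3

theorem twelve_dvd_sigma (n : ℕ) :
    (12 : ℤ) ∣ 5 * (ArithmeticFunction.sigma 3 n : ℤ) + 7 * (ArithmeticFunction.sigma 5 n : ℤ) := by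
  rw [ArithmeticFunction.sigma_apply, ArithmeticFunction.sigma_apply]
  push_cast
  rw [Finset.mul_sum, Finset.mul_sum, ← Finset.sum_add_distrib]
  exact Finset.dvd_sum fun d _ => twelve_dvd_aux d

theorem exists_twelve_mul_eq :
    ∃ C : PowerSeries ℤ, 5 * sigSeries 3 + 7 * sigSeries 5 = 12 * C := by
  choose c hc using twelve_dvd_sigma
  refine ⟨PowerSeries.mk c, ?_⟩
  ext n
  have h5 := ofNat_mul_coeff 5 (sigSeries 3) n
  have h7 := ofNat_mul_coeff 7 (sigSeries 5) n
  have h12 := ofNat_mul_coeff 12 (PowerSeries.mk c) n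
  push_cast at h5 h7 h12
  rw [map_add, h5, h7, h12, sigSeries, sigSeries, PowerSeries.coeff_mk, PowerSeries.coeff_mk,
    PowerSeries.coeff_mk, hc]

/-- `1728 Δ = E₄³ - E₆²` on `q`-expansions. -/
theorem discriminant_qExpansion_mul :
    (1728 : PowerSeries ℂ) * qExpansion 1 ModularForm.discriminant =
      qExpansion 1 E₄ ^ 3 - qExpansion 1 E₆ ^ 2 := by
  let F : ModularForm 𝒮ℒ 12 :=
    ModularForm.mcast (show ((3 : ℕ) : ℤ) * 4 = 12 by norm_num) (E₄.pow 3) -
      ModularForm.mcast (show ((2 : ℕ) : ℤ) * 6 = 12 by norm_num) (E₆.pow 2)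
  have hF : qExpansion 1 F = qExpansion 1 E₄ ^ 3 - qExpansion 1 E₆ ^ 2 := by
    simp only [F]
    rw [FunLike.coe_sub, ModularForm.qExpansion_sub one_pos one_mem_strictPeriods_SL,
      ModularForm.qExpansion_mcast, ModularForm.qExpansion_mcast,
      ModularForm.qExpansion_pow one_pos one_mem_strictPeriods_SL,
      ModularForm.qExpansion_pow one_pos one_mem_strictPeriods_SL]
  have hFΔ : (F : ℍ → ℂ) = ((1728 : ℂ) • CuspForm.discriminant : CuspForm 𝒮ℒ 12) := by
    funext z
    change E₄.pow 3 z - E₆.pow 2 z = (1728 : ℂ) * ModularForm.discriminant z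
    rw [ModularForm.discriminant_eq_E₄_cube_sub_E₆_sq, ModularForm.coe_pow, ModularForm.coe_pow,
      Pi.pow_apply, Pi.pow_apply]
    ring
  have h3 := ModularForm.qExpansion_smul one_pos one_mem_strictPeriods_SL (1728 : ℂ)
    CuspForm.discriminant
  rw [← hF, hFΔ]
  have h4 : (((1728 : ℂ) • CuspForm.discriminant : CuspForm 𝒮ℒ 12) : ℍ → ℂ) =
      (1728 : ℂ) • (CuspForm.discriminant : ℍ → ℂ) := rfl
  rw [h4, h3, CuspForm.coe_discriminant]
  ext n
  have : (1728 : PowerSeries ℂ) = PowerSeries.C (1728 : ℂ) := (map_ofNat _ 1728).symm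
  rw [this, PowerSeries.coeff_C_mul, PowerSeries.coeff_smul, smul_eq_mul]

/-- The `q`-expansion of `Δ` is integral. -/
theorem discriminant_qExpansion_int : qExpansion 1 ModularForm.discriminant ∈ intSeries := by
  obtain ⟨C, hC⟩ := exists_twelve_mul_eq
  refine ⟨C + 100 * sigSeries 3 ^ 2 + 8000 * sigSeries 3 ^ 3 - 147 * sigSeries 5 ^ 2, ?_⟩
  have h := discriminant_qExpansion_mul
  rw [E4_qExpansion_eq, E6_qExpansion_eq, ← map_pow, ← map_pow, ← map_sub] at h
  have key : (1 + ((240 : ℤ) : PowerSeries ℤ) * sigSeries 3) ^ 3 -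
      (1 + ((-504 : ℤ) : PowerSeries ℤ) * sigSeries 5) ^ 2 =
      1728 * (C + 100 * sigSeries 3 ^ 2 + 8000 * sigSeries 3 ^ 3 - 147 * sigSeries 5 ^ 2) := by
    push_cast
    linear_combination 144 * hC
  rw [key, map_mul] at h
  have h1728 : PowerSeries.map (Int.castRingHom ℂ) (1728 : PowerSeries ℤ) = 1728 :=
    map_ofNat _ 1728
  rw [h1728] at h
  have hne : (1728 : PowerSeries ℂ) ≠ 0 := by
    intro h0
    have := congrArg (PowerSeries.coeff 0) h0
    have h2 : (1728 : PowerSeries ℂ) = PowerSeries.C (1728 : ℂ) := (map_ofNat _ 1728).symm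
    rw [h2] at this
    simp at this
  exact (mul_left_cancel₀ hne h).symm

theorem exists_int_mul_discriminant_eq_X :
    ∃ W ∈ intSeries, W * qExpansion 1 ModularForm.discriminant = PowerSeries.X := by
  refine exists_int_mul_eq_X discriminant_qExpansion_int ?_ discriminant_qExpansion_coeff_one
  exact PowerSeries.coeff_of_lt_order _ (by rw [discriminant_qExpansion_order]; exact zero_lt_one)

end Delta

section Main

variable (J : AddSubgroup ℂ)

/-- The property to be proved, for a fixed weight. -/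
def SturmProp (k : ℤ) : Prop :=
  ∀ f : ModularForm 𝒮ℒ k, (∀ m : ℕ, 12 * (m : ℤ) ≤ k → (qExpansion 1 f).coeff m ∈ J) →
    ∀ m : ℕ, (qExpansion 1 f).coeff m ∈ J

theorem sturmProp_of_forall_eq_zero {k : ℤ} (h : ∀ f : ModularForm 𝒮ℒ k, f = 0) :
    SturmProp J k := by
  intro f _ m
  rw [h f]
  have : ((0 : ModularForm 𝒮ℒ k) : ℍ → ℂ) = 0 := rfl
  rw [this, qExpansion_zero]
  simp

theorem sturmProp_neg {k : ℤ} (hk : k < 0) : SturmProp J k :=
  sturmProp_of_forall_eq_zero J
    (rank_zero_iff_forall_zero.mp (ModularForm.levelOne_neg_weight_rank_zero hk))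

theorem sturmProp_zero : SturmProp J 0 := by
  intro f hf m
  obtain ⟨c, hc⟩ := ModularFormClass.levelOne_weight_zero_const (F := ModularForm 𝒮ℒ 0) f
  have h1 : f = c • (1 : ModularForm 𝒮ℒ 0) := by
    ext z
    have := congrFun hc z
    change f z = c * 1
    rw [mul_one]
    exact this
  have h2 : qExpansion 1 f = c • (1 : PowerSeries ℂ) := by
    rw [h1, FunLike.coe_smul, ModularForm.qExpansion_smul one_pos one_mem_strictPeriods_SL,
      ModularForm.qExpansion_one]
  have h0 := hf 0 (by simp)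
  rw [h2] at h0 ⊢
  rcases Nat.eq_zero_or_pos m with rfl | hm
  · exact h0
  · rw [PowerSeries.coeff_smul, PowerSeries.coeff_one, if_neg hm.ne']
    simp

theorem sturmProp_step (k : ℤ) (P : ModularForm 𝒮ℒ k) (hP : qExpansion 1 P ∈ intSeries)
    (hP0 : (qExpansion 1 P).coeff 0 = 1) (hk : 0 ≤ k) (ih : SturmProp J (k - 12)) :
    SturmProp J k := by
  intro f hf
  obtain ⟨c, hc⟩ : ∃ c : ℂ, c = (qExpansion 1 f).coeff 0 := ⟨_, rfl⟩
  have hcJ : c ∈ J := hc ▸ hf 0 (by simpa using hk)
  obtain ⟨F, hF⟩ : ∃ F : ModularForm 𝒮ℒ k, F = f - c • P := ⟨_, rfl⟩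
  have hcusp : (qExpansion 1 F).coeff 0 = 0 := by
    rw [hF, hc]
    exact (ModularForm.isCuspForm_iff_coeffZero_eq_zero _).mp
      (ModularForm.sub_smul_isCuspForm f P hP0)
  have hqF : qExpansion 1 F = qExpansion 1 f - c • qExpansion 1 P := by
    rw [hF, FunLike.coe_sub, ModularForm.qExpansion_sub one_pos one_mem_strictPeriods_SL,
      FunLike.coe_smul, ModularForm.qExpansion_smul one_pos one_mem_strictPeriods_SL]
  have hcP : ∀ m : ℕ, (c • qExpansion 1 P).coeff m ∈ J := by
    intro m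
    obtain ⟨a, ha⟩ := (mem_intSeries_iff.1 hP) m
    rw [PowerSeries.coeff_smul, ha, smul_eq_mul, mul_comm]
    have : (a : ℂ) * c = a • c := by simp
    rw [this]
    exact J.zsmul_mem hcJ a
  set g := CuspForm.discriminantEquiv (ModularForm.toCuspForm F hcusp) with hg
  have hFg : qExpansion 1 F = qExpansion 1 ModularForm.discriminant * qExpansion 1 g :=
    ModularForm.qExpansion_eq_qExpansion_discriminant_mul F hcusp
  obtain ⟨W, hW, hWD⟩ := exists_int_mul_discriminant_eq_X
  have hXg : PowerSeries.X * qExpansion 1 g = W * qExpansion 1 F := by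
    rw [hFg, ← mul_assoc, hWD]
  -- the first coefficients of `g` are in `J`
  have hgJ : ∀ m : ℕ, 12 * (m : ℤ) ≤ k - 12 → (qExpansion 1 g).coeff m ∈ J := by
    intro m hm
    have h1 : (qExpansion 1 g).coeff m = (W * qExpansion 1 F).coeff (m + 1) := by
      rw [← hXg, PowerSeries.coeff_succ_X_mul]
    rw [h1]
    refine coeff_int_mul_mem J hW (m + 1) (fun n hn => ?_) (m + 1) le_rfl
    rw [hqF, map_sub]
    refine J.sub_mem (hf n ?_) (hcP n)
    have : (n : ℤ) ≤ m + 1 := by exact_mod_cast hn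
    linarith
  have hgall := ih g hgJ
  intro m
  have h2 : qExpansion 1 f = qExpansion 1 F + c • qExpansion 1 P := by rw [hqF]; ring
  rw [h2, map_add]
  refine J.add_mem ?_ (hcP m)
  rw [hFg]
  exact coeff_int_mul_mem' J discriminant_qExpansion_int hgall m

theorem sturmProp_of_le (n : ℕ) : ∀ k : ℤ, k ≤ n → SturmProp J k := by
  have main : ∀ k : ℤ, SturmProp J (k - 12) → SturmProp J k := by
    intro k ih
    rcases lt_or_ge k 0 with hk | hk
    · exact sturmProp_neg J hk
    rcases Int.even_or_odd k with he | ho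
    · lift k to ℕ using hk
      have he' : Even k := by exact_mod_cast he
      rcases lt_or_ge k 4 with h4 | h4
      · have h02 : k = 0 ∨ k = 2 := by
          obtain ⟨m, rfl⟩ := he'
          omega
        rcases h02 with rfl | rfl
        · exact sturmProp_zero J
        · exact sturmProp_of_forall_eq_zero J
            (rank_zero_iff_forall_zero.mp ModularForm.levelOne_weight_two_rank_zero)
      · obtain ⟨a, b, hab⟩ := levelOne_exists_monomial k h4 he'
        exact sturmProp_step J k (levelOneMonomial a b k hab) (levelOneMonomial_int a b k hab)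
          (levelOneMonomial_coeff_zero a b k hab) (by positivity) ih
    · exact sturmProp_of_forall_eq_zero J (ModularForm.levelOne_odd_weight_eq_zero ho)
  induction n with
  | zero =>
    intro k hk
    exact main k (sturmProp_neg J (by push_cast at hk; omega))
  | succ n ih =>
    intro k hk
    exact main k (ih (k - 12) (by push_cast at hk; omega))

/-- **Sturm bound modulo an arbitrary additive subgroup, level one.** If the coefficients `a_m`,
`12 m ≤ k`, of a level one modular form of weight `k` lie in an additive subgroup `J` of `ℂ`,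
then all coefficients lie in `J`. -/
theorem sturm_levelOne_addSubgroup {k : ℤ} (f : ModularForm 𝒮ℒ k)
    (h : ∀ m : ℕ, 12 * (m : ℤ) ≤ k → (qExpansion 1 f).coeff m ∈ J) (m : ℕ) :
    (qExpansion 1 f).coeff m ∈ J :=
  sturmProp_of_le J k.toNat k (Int.self_le_toNat k) f h m

/-- Version for an ideal `I` of a subring `R ≤ ℂ` (e.g. the maximal ideal of a valuation
subring above a prime `ℓ`). -/
theorem sturm_levelOne_ideal (R : Subring ℂ) (I : Ideal R) {k : ℤ} (f : ModularForm 𝒮ℒ k)
    (h : ∀ m : ℕ, 12 * (m : ℤ) ≤ k → ∃ r ∈ I, (r : ℂ) = (qExpansion 1 f).coeff m) (m : ℕ) :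
    ∃ r ∈ I, (r : ℂ) = (qExpansion 1 f).coeff m := by
  have := sturm_levelOne_addSubgroup (I.toAddSubgroup.map R.subtype.toAddMonoidHom) f
    (fun m hm => by
      obtain ⟨r, hr, hrm⟩ := h m hm
      exact ⟨r, hr, hrm⟩) m
  obtain ⟨r, hr, hrm⟩ := this
  exact ⟨r, hr, hrm⟩

/-- Integrality version. -/
theorem sturm_levelOne_int {k : ℤ} (f : ModularForm 𝒮ℒ k)
    (h : ∀ m : ℕ, 12 * (m : ℤ) ≤ k → ∃ a : ℤ, (qExpansion 1 f).coeff m = (a : ℂ)) :
    qExpansion 1 f ∈ intSeries := by
  rw [mem_intSeries_iff]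
  intro m
  have := sturm_levelOne_addSubgroup (Int.castAddHom ℂ).range f
    (fun m hm => by
      obtain ⟨a, ha⟩ := h m hm
      exact ⟨a, ha.symm⟩) m
  obtain ⟨a, ha⟩ := this
  exact ⟨a, ha.symm⟩

end Main

end Fermat.Agent.S16
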