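/-
S16: abstract endgame "norm + Sturm": a level one form `N` of weight `K < 12 * n` which is a
product of `n` functions all of whose expansions are `≡ B(q) = q + …` modulo a proper ideal
cannot exist.
-/
import Fermat.Agent.S16.SturmModLambda
import Fermat.Prelude.Thm_UpperHalfPlane_qExpansion_prod
import Fermat.Prelude.Thm_UpperHalfPlane_qExpansion_coeff_nat_mul

set_option autoImplicit false

open UpperHalfPlane ModularForm
open scoped MatrixGroups Manifold

namespace Fermat.Agent.S16

open ModularFormClass

section Algebra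

variable {A : Type*} [CommRing A]

/-- `B(t^h)` as a power series. -/
noncomputable def expandSeries (h : ℕ) (B : PowerSeries A) : PowerSeries A :=
  PowerSeries.mk fun n => if h ∣ n then PowerSeries.coeff (n / h) B else 0

theorem coeff_expandSeries (h : ℕ) (B : PowerSeries A) (n : ℕ) :
    PowerSeries.coeff n (expandSeries h B) = if h ∣ n then PowerSeries.coeff (n / h) B else 0 :=
  PowerSeries.coeff_mk _ _

/-- If `B = q + …` then `B(t^h)^n = t^(hn) (1 + …)`. -/
theorem expandSeries_pow_coeff {h : ℕ} (hh : 0 < h) {B : PowerSeries A}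
    (hB0 : PowerSeries.coeff 0 B = 0) (hB1 : PowerSeries.coeff 1 B = 1) (n : ℕ) :
    (∀ m < h * n, PowerSeries.coeff m (expandSeries h B ^ n) = 0) ∧
      PowerSeries.coeff (h * n) (expandSeries h B ^ n) = 1 := by
  obtain ⟨V, hV⟩ : PowerSeries.X ^ h ∣ expandSeries h B := by
    rw [PowerSeries.X_pow_dvd_iff]
    intro m hm
    rw [coeff_expandSeries]
    split_ifs with hd
    · have : m = 0 := Nat.eq_zero_of_dvd_of_lt hd hm
      subst this
      simpa using hB0
    · rfl
  have hV0 : PowerSeries.constantCoeff V = 1 := by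
    have h1 : PowerSeries.coeff h (expandSeries h B) = 1 := by
      rw [coeff_expandSeries, if_pos dvd_rfl, Nat.div_self hh, hB1]
    have h2 := PowerSeries.coeff_X_pow_mul V h 0
    rw [zero_add] at h2
    rw [hV, h2] at h1
    simpa using h1
  have hpow : expandSeries h B ^ n = PowerSeries.X ^ (h * n) * V ^ n := by
    rw [hV, mul_pow, ← pow_mul]
  refine ⟨fun m hm => ?_, ?_⟩
  · have : PowerSeries.X ^ (h * n) ∣ expandSeries h B ^ n := ⟨_, hpow⟩
    exact (PowerSeries.X_pow_dvd_iff.1 this) m hm
  · rw [hpow]
    have := PowerSeries.coeff_X_pow_mul (V ^ n) (h * n) 0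
    rw [zero_add] at this
    rw [this]
    simp [hV0]

theorem map_expandSeries {A' : Type*} [CommRing A'] (φ : A →+* A') (h : ℕ) (B : PowerSeries A) :
    PowerSeries.map φ (expandSeries h B) = expandSeries h (PowerSeries.map φ B) := by
  ext n
  rw [PowerSeries.coeff_map, coeff_expandSeries, coeff_expandSeries]
  split_ifs
  · rw [PowerSeries.coeff_map]
  · exact map_zero φ

end Algebra

/-- **Norm + Sturm endgame.**  A level one form `N` of weight `K < 12 * n` cannot be the product
of `n` functions all of whose `q^(1/h)`-expansions are congruent to `B(q) = q + …` modulo a proper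
ideal `I` of a subring `R ⊆ ℂ`. -/
theorem norm_sturm_false (R : Subring ℂ) (I : Ideal R) (hI : I ≠ ⊤) {K : ℤ}
    (N : ModularForm 𝒮ℒ K) {ι : Type} [Fintype ι] (X : ι → ℍ → ℂ) (hN : ⇑N = ∏ i, X i)
    (h : ℕ) (hh : 0 < h) (hX : ∀ i, AnalyticAt ℂ (cuspFunction h (X i)) 0)
    (B : PowerSeries ℂ) (hB : ∀ n, PowerSeries.coeff n B ∈ R)
    (hB0 : PowerSeries.coeff 0 B = 0) (hB1 : PowerSeries.coeff 1 B = 1)
    (hcong : ∀ i n, ∃ r ∈ I, (r : ℂ) = (qExpansion h (X i)).coeff n -
        (if h ∣ n then PowerSeries.coeff (n / h) B else 0))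
    (hK : K < 12 * (Fintype.card ι : ℤ)) : False := by
  classical
  set n := Fintype.card ι with hn
  -- lift everything to `R`
  let BR : PowerSeries R := PowerSeries.mk fun m => ⟨PowerSeries.coeff m B, hB m⟩
  have hBR : PowerSeries.map R.subtype BR = B := by
    ext m
    simp [BR]
  choose r hrI hr using hcong
  let AR : ι → PowerSeries R := fun i => PowerSeries.mk (r i) + expandSeries h BR
  have hAR : ∀ i, PowerSeries.map R.subtype (AR i) = qExpansion h (X i) := by
    intro i
    ext m
    simp only [AR, map_add, map_expandSeries, hBR, coeff_expandSeries, PowerSeries.coeff_map,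
      PowerSeries.coeff_mk, Subring.subtype_apply, hr]
    ring
  let π := Ideal.Quotient.mk I
  have hARq : ∀ i, PowerSeries.map π (AR i) = expandSeries h (PowerSeries.map π BR) := by
    intro i
    have h0 : PowerSeries.map π (PowerSeries.mk (r i)) = 0 := by
      ext m
      simp only [PowerSeries.coeff_map, PowerSeries.coeff_mk, map_zero]
      exact Ideal.Quotient.eq_zero_iff_mem.2 (hrI i m)
    simp only [AR, map_add, h0, zero_add, map_expandSeries]
  let P : PowerSeries R := ∏ i, AR i
  have hP : PowerSeries.map R.subtype P = qExpansion h N := by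
    rw [hN, UpperHalfPlane.qExpansion_prod Finset.univ (fun i _ => hX i)]
    simp only [P, map_prod, hAR]
  have hPq : PowerSeries.map π P = expandSeries h (PowerSeries.map π BR) ^ n := by
    simp only [P, map_prod, hARq, Finset.prod_const, Finset.card_univ, hn]
  have hb0 : PowerSeries.coeff 0 (PowerSeries.map π BR) = 0 := by
    have : PowerSeries.coeff 0 BR = 0 := by
      apply Subtype.ext
      simpa [BR] using hB0
    rw [PowerSeries.coeff_map, this, map_zero]
  have hb1 : PowerSeries.coeff 1 (PowerSeries.map π BR) = 1 := by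
    have : PowerSeries.coeff 1 BR = 1 := by
      apply Subtype.ext
      simpa [BR] using hB1
    rw [PowerSeries.coeff_map, this, map_one]
  obtain ⟨hlow, htop⟩ := expandSeries_pow_coeff hh hb0 hb1 n
  rw [← hPq] at hlow htop
  -- coefficients of `N`
  have hcoeff : ∀ m, (qExpansion 1 N).coeff m = ((PowerSeries.coeff (h * m) P : R) : ℂ) := by
    intro m
    have h1 := UpperHalfPlane.qExpansion_coeff_nat_mul (h := 1) one_pos (F := ⇑N)
      (SlashInvariantFormClass.periodic_comp_ofComplex N (by simp))
      (ModularFormClass.holo N) (ModularFormClass.bdd_at_infty N) hh (h * m)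
    rw [if_pos (dvd_mul_right _ _), Nat.mul_div_cancel_left _ hh, mul_one] at h1
    rw [← h1, ← hP, PowerSeries.coeff_map]
    rfl
  have hst := sturm_levelOne_ideal R I N (fun m hm => by
    refine ⟨PowerSeries.coeff (h * m) P, ?_, (hcoeff m).symm⟩
    have hmn : m < n := by
      have : 12 * (m : ℤ) < 12 * (n : ℤ) := lt_of_le_of_lt hm hK
      omega
    have := hlow (h * m) (Nat.mul_lt_mul_of_pos_left hmn hh)
    rw [PowerSeries.coeff_map] at this
    exact Ideal.Quotient.eq_zero_iff_mem.1 this) n
  obtain ⟨s, hsI, hs⟩ := hst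
  rw [hcoeff] at hs
  have hs' : s = PowerSeries.coeff (h * n) P := Subtype.ext hs
  rw [PowerSeries.coeff_map, ← hs'] at htop
  have : π s = 0 := Ideal.Quotient.eq_zero_iff_mem.2 hsI
  rw [this] at htop
  apply hI
  rw [Ideal.eq_top_iff_one]
  apply Ideal.Quotient.eq_zero_iff_mem.1
  rw [map_one]
  exact htop.symm

end Fermat.Agent.S16
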