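import Fermat.Prelude.Def_ModularCurve_ModularUnit
import Fermat.Agent.S16.Duality
import Fermat.Agent.S16.Upper.Main
import Fermat.Agent.S16.Lower
import Fermat.Agent.S16.SmallP

/-!
# S16: assembly of the two bounds (everything except the existence of `θ`)
-/

set_option autoImplicit false

namespace Fermat.Agent.S16

open UpperHalfPlane ModularForm CongruenceSubgroup ModularFormClass ModularCurve CuspForm

theorem card_eq_of_theta (p : ℕ) [hp : Fact p.Prime]
    (hθ : 5 ≤ p → ∃ θ : ModularForm (Gamma0 p) 2, (qExpansion 1 θ).coeff 0 = 1 ∧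
      ∀ k : ℕ, 1 ≤ k → ∃ m : ℤ, (qExpansion 1 θ).coeff k = 2 * (m : ℂ)) :
    Nat.card (↥(heckeLatticeAlgebra p ∅) ⧸
        Ideal.map ((latticeRestrictHom p ∅).toRingHom.comp (heckeEvalForms p 2))
          (eisensteinIdeal p)) =
      eisensteinNumerator p := by
  apply card_eq_of_congEis p (eisensteinNumerator p)
  · -- lower bound
    rcases lt_or_ge p 5 with h | h
    · have h1 : eisensteinNumerator p = 1 := by
        have h2 := hp.out.two_le
        unfold eisensteinNumerator
        interval_cases p
        · decide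
        · decide
        · exact absurd hp.out (by decide)
      rw [h1]
      refine ⟨0, fun k _ => ⟨- sigmaP p k, ?_⟩⟩
      have : qCoeff (⇑(0 : CuspForm (Gamma0 p) 2)) k = 0 := by
        have h0 : (⇑(0 : CuspForm (Gamma0 p) 2) : ℍ → ℂ) = 0 := rfl
        rw [h0, qCoeff, qExpansion_zero]
        simp
      rw [this]
      push_cast
      ring
    · exact lower_bound h (hθ h)
  · -- upper bound
    rintro M ⟨f, hf⟩
    rcases lt_or_ge p 5 with h | h
    · have hf0 := cuspForm_eq_zero_of_lt_five h f
      obtain ⟨m, hm⟩ := hf 1 le_rfl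
      have : qCoeff (⇑f) 1 = 0 := by
        rw [hf0]
        have h0 : (⇑(0 : CuspForm (Gamma0 p) 2) : ℍ → ℂ) = 0 := rfl
        rw [h0, qCoeff, qExpansion_zero]
        simp
      rw [this, sigmaP_one p hp.out] at hm
      have hm' : (1 : ℤ) + (M : ℤ) * m = 0 := by exact_mod_cast hm.symm
      have hM1 : (M : ℤ) ∣ 1 := ⟨-m, by linear_combination hm'⟩
      have : M ∣ 1 := by exact_mod_cast hM1
      exact this.trans (one_dvd _)
    · exact upper_bound h hf

end Fermat.Agent.S16
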