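import Mathlib

/-!
# Families of functions indexed by `P¹(𝔽_p)` permuted by `S` and `T`

`P1Family p k X` says that the family `X : Option (ZMod p) → ℍ → ℂ` is permuted by the weight `k`
slash action of `S` and `T` in the same way as the cosets `Γ₀(p) \ SL₂(ℤ)`.
Consequences: `X none` is `Γ₀(p)`-invariant, every `SL₂(ℤ)`-translate of `X x` is some `X y`,
the sum and the product of the family are `SL₂(ℤ)`-invariant.
-/

set_option autoImplicit false

namespace Fermat.Agent.S16

open UpperHalfPlane ModularForm CongruenceSubgroup Matrix.SpecialLinearGroup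
open scoped MatrixGroups ModularForm Manifold

variable {p : ℕ} [Fact p.Prime] {k : ℤ}

/-- action of `S` on `P¹(𝔽_p) = 𝔽_p ∪ {∞}` (right action on row vectors `(c : d) ↦ d / c`). -/
def sigS (p : ℕ) : Option (ZMod p) → Option (ZMod p)
  | none => some 0
  | some j => if j = 0 then none else some (-j⁻¹)

/-- action of `T`. -/
def sigT (p : ℕ) : Option (ZMod p) → Option (ZMod p)
  | none => none
  | some j => some (j + 1)

/-- action of `T⁻¹`. -/
def sigT' (p : ℕ) : Option (ZMod p) → Option (ZMod p)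
  | none => none
  | some j => some (j - 1)

lemma sigS_sigS (x : Option (ZMod p)) : sigS p (sigS p x) = x := by
  rcases x with _ | j
  · simp [sigS]
  · by_cases hj : j = 0
    · simp [sigS, hj]
    · simp [sigS, hj]

lemma sigT_sigT' (x : Option (ZMod p)) : sigT p (sigT' p x) = x := by
  rcases x with _ | j <;> simp [sigT, sigT']

lemma sigT'_sigT (x : Option (ZMod p)) : sigT' p (sigT p x) = x := by
  rcases x with _ | j <;> simp [sigT, sigT']

/-- `sigS` as a permutation. -/
def permS (p : ℕ) [Fact p.Prime] : Equiv.Perm (Option (ZMod p)) :=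
  ⟨sigS p, sigS p, sigS_sigS, sigS_sigS⟩

/-- `sigT` as a permutation. -/
def permT (p : ℕ) [Fact p.Prime] : Equiv.Perm (Option (ZMod p)) :=
  ⟨sigT p, sigT' p, sigT'_sigT, sigT_sigT'⟩

/-- A family of functions on `ℍ` indexed by `P¹(𝔽_p)` which is permuted by the weight `k`
slash action of `S` and `T` in the same way as the cosets `Γ₀(p) \ SL₂(ℤ)`. -/
structure P1Family (p : ℕ) [Fact p.Prime] (k : ℤ) (X : Option (ZMod p) → ℍ → ℂ) : Prop where
  slash_S : ∀ x, X x ∣[k] ModularGroup.S = X (sigS p x)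
  slash_T : ∀ x, X x ∣[k] ModularGroup.T = X (sigT p x)

/-- Constructor with the five explicit relations. -/
lemma P1Family.mk' {X : Option (ZMod p) → ℍ → ℂ}
    (T_none : X none ∣[k] ModularGroup.T = X none)
    (T_some : ∀ j, X (some j) ∣[k] ModularGroup.T = X (some (j + 1)))
    (S_none : X none ∣[k] ModularGroup.S = X (some 0))
    (S_zero : X (some 0) ∣[k] ModularGroup.S = X none)
    (S_some : ∀ j, j ≠ 0 → X (some j) ∣[k] ModularGroup.S = X (some (-j⁻¹))) :
    P1Family p k X where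
  slash_S x := by
    rcases x with _ | j
    · simpa [sigS] using S_none
    · by_cases hj : j = 0
      · subst hj; simpa [sigS] using S_zero
      · simpa [sigS, hj] using S_some j hj
  slash_T x := by
    rcases x with _ | j
    · simpa [sigT] using T_none
    · simpa [sigT] using T_some j

/-- the point of `P¹(𝔽_p)` attached to the bottom row of `γ`. -/
def idx (p : ℕ) [Fact p.Prime] (γ : SL(2, ℤ)) : Option (ZMod p) :=
  if ((γ 1 0 : ℤ) : ZMod p) = 0 then none
  else some (((γ 1 1 : ℤ) : ZMod p) * ((γ 1 0 : ℤ) : ZMod p)⁻¹)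

lemma bottom_ne_zero (γ : SL(2, ℤ)) (h : ((γ 1 0 : ℤ) : ZMod p) = 0) :
    ((γ 1 1 : ℤ) : ZMod p) ≠ 0 := by
  intro h'
  have hdet := Matrix.det_fin_two γ.1
  rw [γ.2] at hdet
  have := congrArg (fun x : ℤ => (x : ZMod p)) hdet
  simp only [Int.cast_one, Int.cast_sub, Int.cast_mul] at this
  have h1 : ((γ.1 1 0 : ℤ) : ZMod p) = 0 := h
  have h2 : ((γ.1 1 1 : ℤ) : ZMod p) = 0 := h'
  rw [h1, h2] at this
  simp at this

lemma idx_one : idx p (1 : SL(2, ℤ)) = none := by
  simp [idx]

lemma idx_mul_S (γ : SL(2, ℤ)) : idx p (γ * ModularGroup.S) = sigS p (idx p γ) := by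
  have e10 : (γ * ModularGroup.S) 1 0 = γ 1 1 := by
    rw [Matrix.SpecialLinearGroup.coe_mul, ModularGroup.coe_S, Matrix.mul_apply, Fin.sum_univ_two]
    simp
  have e11 : (γ * ModularGroup.S) 1 1 = - γ 1 0 := by
    rw [Matrix.SpecialLinearGroup.coe_mul, ModularGroup.coe_S, Matrix.mul_apply, Fin.sum_univ_two]
    simp
  unfold idx
  rw [e10, e11]
  by_cases hc : ((γ 1 0 : ℤ) : ZMod p) = 0
  · have hd := bottom_ne_zero γ hc
    simp [hc, hd, sigS]
  · by_cases hd : ((γ 1 1 : ℤ) : ZMod p) = 0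
    · simp [hc, hd, sigS]
    · simp [hc, hd, sigS, mul_comm]

lemma idx_mul_T (γ : SL(2, ℤ)) : idx p (γ * ModularGroup.T) = sigT p (idx p γ) := by
  have e10 : (γ * ModularGroup.T) 1 0 = γ 1 0 := by
    rw [Matrix.SpecialLinearGroup.coe_mul, ModularGroup.coe_T, Matrix.mul_apply, Fin.sum_univ_two]
    simp
  have e11 : (γ * ModularGroup.T) 1 1 = γ 1 0 + γ 1 1 := by
    rw [Matrix.SpecialLinearGroup.coe_mul, ModularGroup.coe_T, Matrix.mul_apply, Fin.sum_univ_two]
    simp
  unfold idx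
  rw [e10, e11]
  by_cases hc : ((γ 1 0 : ℤ) : ZMod p) = 0
  · simp [hc, sigT]
  · simp only [hc, if_false, sigT, Int.cast_add, Option.some.injEq]
    field_simp
    ring

lemma idx_eq_none_iff (γ : SL(2, ℤ)) : idx p γ = none ↔ γ ∈ Gamma0 p := by
  unfold idx
  rw [Gamma0_mem]
  by_cases hc : ((γ 1 0 : ℤ) : ZMod p) = 0 <;> simp [hc]

lemma mul_inv_mem_Gamma0_of_idx_eq {γ γ' : SL(2, ℤ)} (h : idx p γ = idx p γ') :
    γ' * γ⁻¹ ∈ Gamma0 p := by
  rw [Gamma0_mem]
  have e : (γ' * γ⁻¹) 1 0 = γ' 1 0 * γ 1 1 - γ' 1 1 * γ 1 0 := by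
    rw [Matrix.SpecialLinearGroup.coe_mul, Matrix.SpecialLinearGroup.SL2_inv_expl,
      Matrix.mul_apply, Fin.sum_univ_two]
    simp
    ring
  rw [e]
  unfold idx at h
  push_cast
  by_cases hc : ((γ 1 0 : ℤ) : ZMod p) = 0
  · by_cases hc' : ((γ' 1 0 : ℤ) : ZMod p) = 0
    · simp [hc, hc']
    · simp [hc, hc'] at h
  · by_cases hc' : ((γ' 1 0 : ℤ) : ZMod p) = 0
    · simp [hc, hc'] at h
    · simp only [hc, hc', if_false, Option.some.injEq] at h
      field_simp at h
      rw [sub_eq_zero]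
      linear_combination h

namespace P1Family

variable {X : Option (ZMod p) → ℍ → ℂ}

lemma slash_S_inv (h : P1Family p k X) (x : Option (ZMod p)) :
    X x ∣[k] (ModularGroup.S)⁻¹ = X (sigS p x) := by
  have := h.slash_S (sigS p x)
  rw [sigS_sigS] at this
  rw [← this, ← SlashAction.slash_mul]
  simp

lemma slash_T_inv (h : P1Family p k X) (x : Option (ZMod p)) :
    X x ∣[k] (ModularGroup.T)⁻¹ = X (sigT' p x) := by
  have := h.slash_T (sigT' p x)
  rw [sigT_sigT'] at this
  rw [← this, ← SlashAction.slash_mul]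
  simp

/-- Every element of `SL₂(ℤ)` permutes the family. -/
lemma exists_perm (h : P1Family p k X) (γ : SL(2, ℤ)) :
    ∃ π : Equiv.Perm (Option (ZMod p)), ∀ x, X x ∣[k] γ = X (π x) := by
  have hγ : γ ∈ Subgroup.closure {ModularGroup.S, ModularGroup.T} := by
    simp [SpecialLinearGroup.SL2Z_generators]
  induction hγ using Subgroup.closure_induction_right with
  | one => exact ⟨1, fun x => by simp⟩
  | mul_right g s _ hs ih =>
    obtain ⟨π, hπ⟩ := ih
    rcases hs with rfl | hs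
    · exact ⟨π.trans (permS p), fun x => by
        rw [SlashAction.slash_mul, hπ, h.slash_S]; rfl⟩
    · rw [Set.mem_singleton_iff] at hs
      subst hs
      exact ⟨π.trans (permT p), fun x => by
        rw [SlashAction.slash_mul, hπ, h.slash_T]; rfl⟩
  | mul_inv_cancel g s _ hs ih =>
    obtain ⟨π, hπ⟩ := ih
    rcases hs with rfl | hs
    · exact ⟨π.trans (permS p), fun x => by
        rw [SlashAction.slash_mul, hπ, h.slash_S_inv]; rfl⟩
    · rw [Set.mem_singleton_iff] at hs
      subst hs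
      exact ⟨π.trans (permT p).symm, fun x => by
        rw [SlashAction.slash_mul, hπ, h.slash_T_inv]; rfl⟩

/-- The translate of `X ∞` by `γ` is `X (c : d)`. -/
lemma slash_none (h : P1Family p k X) (γ : SL(2, ℤ)) :
    X none ∣[k] γ = X (idx p γ) := by
  have hγ : γ ∈ Subgroup.closure {ModularGroup.S, ModularGroup.T} := by
    simp [SpecialLinearGroup.SL2Z_generators]
  induction hγ using Subgroup.closure_induction_right with
  | one => simp [idx_one]
  | mul_right g s _ hs ih =>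
    rcases hs with rfl | hs
    · rw [SlashAction.slash_mul, ih, h.slash_S, idx_mul_S]
    · rw [Set.mem_singleton_iff] at hs
      subst hs
      rw [SlashAction.slash_mul, ih, h.slash_T, idx_mul_T]
  | mul_inv_cancel g s _ hs ih =>
    rcases hs with rfl | hs
    · rw [SlashAction.slash_mul, ih, h.slash_S_inv]
      have := idx_mul_S (p := p) (g * ModularGroup.S⁻¹)
      rw [inv_mul_cancel_right] at this
      rw [this, sigS_sigS]
    · rw [Set.mem_singleton_iff] at hs
      subst hs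
      rw [SlashAction.slash_mul, ih, h.slash_T_inv]
      have := idx_mul_T (p := p) (g * ModularGroup.T⁻¹)
      rw [inv_mul_cancel_right] at this
      rw [this, sigT'_sigT]

lemma slash_Gamma0 (h : P1Family p k X) {γ : SL(2, ℤ)} (hγ : γ ∈ Gamma0 p) :
    X none ∣[k] γ = X none := by
  rw [h.slash_none, (idx_eq_none_iff γ).2 hγ]

lemma sum_slash (h : P1Family p k X) (γ : SL(2, ℤ)) :
    (∑ x, X x) ∣[k] γ = ∑ x, X x := by
  obtain ⟨π, hπ⟩ := h.exists_perm γ
  rw [SlashAction.sum_slash]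
  simp_rw [hπ]
  exact Equiv.sum_comp π X

lemma prod_slash (h : P1Family p k X) (γ : SL(2, ℤ)) :
    (∏ x, X x) ∣[k * (p + 1)] γ = ∏ x, X x := by
  obtain ⟨π, hπ⟩ := h.exists_perm γ
  have hcard : ((Finset.univ : Finset (Option (ZMod p))).card : ℤ) = p + 1 := by
    rw [Finset.card_univ, Fintype.card_option, ZMod.card]
    push_cast; ring
  rw [← hcard, ModularForm.SL_slash, ModularForm.prod_slash]
  simp only [← ModularForm.SL_slash, hπ]
  rw [Equiv.prod_comp π X]
  simp

/-- `X ∞` is a modular form for `Γ₀(p)`. -/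
theorem exists_modularForm (h : P1Family p k X) (hol : MDiff (X none))
    (bdd : ∀ x, IsBoundedAtImInfty (X x)) :
    ∃ F : ModularForm (Gamma0 p) k, ⇑F = X none :=
  ⟨{ toFun := X none
     slash_action_eq' := by
       rintro _ ⟨γ, hγ, rfl⟩
       exact h.slash_Gamma0 hγ
     holo' := hol
     bdd_at_cusps' := fun {c} hc => by
       rw [Subgroup.IsArithmetic.isCusp_iff_isCusp_SL2Z] at hc
       rw [OnePoint.isBoundedAt_iff_forall_SL2Z hc]
       intro γ _
       rw [h.slash_none]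
       exact bdd _ }, rfl⟩

/-- `X ∞` is a cusp form for `Γ₀(p)`. -/
theorem exists_cuspForm (h : P1Family p k X) (hol : MDiff (X none))
    (zero : ∀ x, IsZeroAtImInfty (X x)) :
    ∃ F : CuspForm (Gamma0 p) k, ⇑F = X none :=
  ⟨{ toFun := X none
     slash_action_eq' := by
       rintro _ ⟨γ, hγ, rfl⟩
       exact h.slash_Gamma0 hγ
     holo' := hol
     zero_at_cusps' := fun {c} hc => by
       rw [Subgroup.IsArithmetic.isCusp_iff_isCusp_SL2Z] at hc
       rw [OnePoint.isZeroAt_iff_forall_SL2Z hc]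
       intro γ _
       rw [h.slash_none]
       exact zero _ }, rfl⟩

/-- The trace of the family is a modular form of level one. -/
theorem exists_trace (h : P1Family p k X) (hol : ∀ x, MDiff (X x))
    (bdd : ∀ x, IsBoundedAtImInfty (X x)) :
    ∃ G : ModularForm 𝒮ℒ k, ⇑G = ∑ x, X x :=
  ⟨{ toFun := ∑ x, X x
     slash_action_eq' := by
       rintro _ ⟨γ, rfl⟩
       exact h.sum_slash γ
     holo' := MDifferentiable.sum (fun x _ => hol x)
     bdd_at_cusps' := fun {c} hc => by
       rw [Subgroup.IsArithmetic.isCusp_iff_isCusp_SL2Z] at hc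
       rw [OnePoint.isBoundedAt_iff_forall_SL2Z hc]
       intro γ _
       rw [h.sum_slash]
       exact (Filter.boundedFilterSubalgebra ℂ atImInfty).sum_mem (fun x _ => bdd x) }, rfl⟩

/-- The norm of the family is a modular form of level one. -/
theorem exists_norm (h : P1Family p k X) (hol : ∀ x, MDiff (X x))
    (bdd : ∀ x, IsBoundedAtImInfty (X x)) :
    ∃ G : ModularForm 𝒮ℒ (k * (p + 1)), ⇑G = ∏ x, X x :=
  ⟨{ toFun := ∏ x, X x
     slash_action_eq' := by
       rintro _ ⟨γ, rfl⟩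
       exact h.prod_slash γ
     holo' := MDifferentiable.prod (fun x _ => hol x)
     bdd_at_cusps' := fun {c} hc => by
       rw [Subgroup.IsArithmetic.isCusp_iff_isCusp_SL2Z] at hc
       rw [OnePoint.isBoundedAt_iff_forall_SL2Z hc]
       intro γ _
       rw [h.prod_slash]
       exact Subalgebra.prod_mem (Filter.boundedFilterSubalgebra ℂ atImInfty) (f := X)
         (fun x _ => bdd x) }, rfl⟩

end P1Family

/-! ### The family attached to a `Γ₀(p)`-invariant function -/

/-- coset representatives of `Γ₀(p) \ SL₂(ℤ)`. -/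
noncomputable def cosetRep (p : ℕ) : Option (ZMod p) → SL(2, ℤ)
  | none => 1
  | some j => ModularGroup.S * ModularGroup.T ^ (j.val : ℤ)

lemma idx_cosetRep (x : Option (ZMod p)) : idx p (cosetRep p x) = x := by
  rcases x with _ | j
  · simp [cosetRep, idx_one]
  · have e10 : (ModularGroup.S * ModularGroup.T ^ (j.val : ℤ)) 1 0 = 1 := by
      rw [Matrix.SpecialLinearGroup.coe_mul, ModularGroup.coe_S, ModularGroup.coe_T_zpow,
        Matrix.mul_apply, Fin.sum_univ_two]
      simp
    have e11 : (ModularGroup.S * ModularGroup.T ^ (j.val : ℤ)) 1 1 = (j.val : ℤ) := by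
      rw [Matrix.SpecialLinearGroup.coe_mul, ModularGroup.coe_S, ModularGroup.coe_T_zpow,
        Matrix.mul_apply, Fin.sum_univ_two]
      simp
    unfold cosetRep idx
    rw [e10, e11]
    simp

/-- the family `f, f ∣ S T^j`. -/
noncomputable def famOf (p : ℕ) (k : ℤ) (f : ℍ → ℂ) (x : Option (ZMod p)) : ℍ → ℂ :=
  f ∣[k] cosetRep p x

omit [Fact p.Prime] in
@[simp] lemma famOf_none (f : ℍ → ℂ) : famOf p k f none = f := by
  simp [famOf, cosetRep]

omit [Fact p.Prime] in
lemma famOf_some (f : ℍ → ℂ) (j : ZMod p) :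
    famOf p k f (some j) = (f ∣[k] ModularGroup.S) ∣[k] (ModularGroup.T ^ (j.val : ℤ)) := by
  rw [← SlashAction.slash_mul]; rfl

lemma slash_eq_of_idx_eq {f : ℍ → ℂ} (hf : ∀ γ ∈ Gamma0 p, f ∣[k] γ = f) {γ γ' : SL(2, ℤ)}
    (h : idx p γ = idx p γ') : f ∣[k] γ = f ∣[k] γ' := by
  have := hf _ (mul_inv_mem_Gamma0_of_idx_eq h)
  conv_lhs => rw [← this, ← SlashAction.slash_mul]
  simp

theorem p1Family_famOf {f : ℍ → ℂ} (hf : ∀ γ ∈ Gamma0 p, f ∣[k] γ = f) :
    P1Family p k (famOf p k f) where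
  slash_S x := by
    unfold famOf
    rw [← SlashAction.slash_mul]
    exact slash_eq_of_idx_eq hf (by rw [idx_mul_S, idx_cosetRep, idx_cosetRep])
  slash_T x := by
    unfold famOf
    rw [← SlashAction.slash_mul]
    exact slash_eq_of_idx_eq hf (by rw [idx_mul_T, idx_cosetRep, idx_cosetRep])

/-! ### Criteria for a `Γ₀(p)`-invariant function to be a modular form / cusp form -/

lemma slash_T_zpow_apply (k : ℤ) (g : ℍ → ℂ) (n : ℤ) (z : ℍ) :
    (g ∣[k] (ModularGroup.T ^ n)) z = g ((n : ℝ) +ᵥ z) := by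
  rw [ModularForm.SL_slash_apply, UpperHalfPlane.modular_T_zpow_smul, ModularGroup.denom_apply,
    ModularGroup.coe_T_zpow]
  simp

lemma isBoundedAtImInfty_slash_T_zpow {k : ℤ} {g : ℍ → ℂ} (hg : IsBoundedAtImInfty g) (n : ℤ) :
    IsBoundedAtImInfty (g ∣[k] (ModularGroup.T ^ n)) := by
  rw [isBoundedAtImInfty_iff] at hg ⊢
  obtain ⟨M, A, h⟩ := hg
  refine ⟨M, A, fun z hz => ?_⟩
  rw [slash_T_zpow_apply]
  exact h _ (by simpa using hz)

lemma isZeroAtImInfty_slash_T_zpow {k : ℤ} {g : ℍ → ℂ} (hg : IsZeroAtImInfty g) (n : ℤ) :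
    IsZeroAtImInfty (g ∣[k] (ModularGroup.T ^ n)) := by
  rw [isZeroAtImInfty_iff] at hg ⊢
  intro ε hε
  obtain ⟨A, h⟩ := hg ε hε
  refine ⟨A, fun z hz => ?_⟩
  rw [slash_T_zpow_apply]
  exact h _ (by simpa using hz)

/-- value of the members of `famOf`. -/
lemma famOf_some_apply (f : ℍ → ℂ) (j : ZMod p) (z : ℍ) :
    famOf p k f (some j) z = (f ∣[k] ModularGroup.S) (((j.val : ℤ) : ℝ) +ᵥ z) := by
  rw [famOf_some, slash_T_zpow_apply]

lemma isBoundedAtImInfty_famOf {f : ℍ → ℂ} (b1 : IsBoundedAtImInfty f)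
    (b2 : IsBoundedAtImInfty (f ∣[k] ModularGroup.S)) (x : Option (ZMod p)) :
    IsBoundedAtImInfty (famOf p k f x) := by
  rcases x with _ | j
  · simpa using b1
  · rw [famOf_some]; exact isBoundedAtImInfty_slash_T_zpow b2 _

lemma isZeroAtImInfty_famOf {f : ℍ → ℂ} (b1 : IsZeroAtImInfty f)
    (b2 : IsZeroAtImInfty (f ∣[k] ModularGroup.S)) (x : Option (ZMod p)) :
    IsZeroAtImInfty (famOf p k f x) := by
  rcases x with _ | j
  · simpa using b1
  · rw [famOf_some]; exact isZeroAtImInfty_slash_T_zpow b2 _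

/-- A holomorphic `Γ₀(p)`-invariant function which is bounded at the two cusps `∞`, `0` is a
modular form. -/
theorem exists_modularForm_of_invariant {f : ℍ → ℂ} (hf : ∀ γ ∈ Gamma0 p, f ∣[k] γ = f)
    (hol : MDiff f) (b1 : IsBoundedAtImInfty f)
    (b2 : IsBoundedAtImInfty (f ∣[k] ModularGroup.S)) :
    ∃ F : ModularForm (Gamma0 p) k, ⇑F = f := by
  obtain ⟨F, hF⟩ := (p1Family_famOf hf).exists_modularForm (by simpa using hol)
    (isBoundedAtImInfty_famOf b1 b2)
  exact ⟨F, by simpa using hF⟩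

/-- A holomorphic `Γ₀(p)`-invariant function which vanishes at the two cusps `∞`, `0` is a
cusp form. -/
theorem exists_cuspForm_of_invariant {f : ℍ → ℂ} (hf : ∀ γ ∈ Gamma0 p, f ∣[k] γ = f)
    (hol : MDiff f) (b1 : IsZeroAtImInfty f)
    (b2 : IsZeroAtImInfty (f ∣[k] ModularGroup.S)) :
    ∃ F : CuspForm (Gamma0 p) k, ⇑F = f := by
  obtain ⟨F, hF⟩ := (p1Family_famOf hf).exists_cuspForm (by simpa using hol)
    (isZeroAtImInfty_famOf b1 b2)
  exact ⟨F, by simpa using hF⟩

/-- invariance of a modular form, in `SL₂(ℤ)` form. -/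
lemma slash_Gamma0_eq {F : Type*} [FunLike F ℍ ℂ] [SlashInvariantFormClass F (Gamma0 p) k]
    (f : F) : ∀ γ ∈ Gamma0 p, (⇑f) ∣[k] γ = ⇑f := fun γ hγ =>
  SlashInvariantFormClass.slash_action_eq f _ ⟨γ, hγ, rfl⟩

end Fermat.Agent.S16
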