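import Mathlib
import Fermat.Prelude.Def_ModularForm_HeckeOperator
import Fermat.Prelude.Def_FLTPrelim_Modularity
import Fermat.Prelude.Thm_CongruenceSubgroup_one_mem_strictPeriods_Gamma0

set_option autoImplicit false

open UpperHalfPlane ModularForm CongruenceSubgroup Matrix EisensteinSeries
open scoped MatrixGroups ModularForm Real Manifold

namespace Fermat.Agent.S16

noncomputable section

/-- `e'(z) = (p E₂(pz) - E₂(z)) / 24`. -/
def eisFun (p : ℕ) : ℍ → ℂ := (1 / 24 : ℂ) • (E2 ∣[(2 : ℤ)] heckeDiagMatrix p - E2)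

theorem eisFun_apply {p : ℕ} (hp : p ≠ 0) (z : ℍ) :
    eisFun p z = ((p : ℂ) * E2 (heckeDiagMatrix p • z) - E2 z) / 24 := by
  simp only [eisFun, Pi.smul_apply, Pi.sub_apply, slash_heckeDiagMatrix_apply 2 hp, smul_eq_mul]
  norm_num
  ring

theorem mapGL_val_apply' (g : SL(2, ℤ)) (i j : Fin 2) :
    ((Matrix.SpecialLinearGroup.mapGL ℝ g : GL (Fin 2) ℝ) : Matrix (Fin 2) (Fin 2) ℝ) i j
      = ((g i j : ℤ) : ℝ) := by
  simp [Matrix.SpecialLinearGroup.mapGL_coe_matrix]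

/-- For `γ ∈ Γ₀(N)`, the matrix `diag(N,1) γ diag(N,1)⁻¹` as an element of `SL(2,ℤ)`. -/
def conjD (N : ℕ) (γ : SL(2, ℤ)) (c : ℤ) (hc : γ 1 0 = N * c) : SL(2, ℤ) :=
  ⟨!![γ 0 0, N * γ 0 1; c, γ 1 1], by
    have hdet := Matrix.det_fin_two γ.1
    rw [γ.2] at hdet
    rw [Matrix.det_fin_two_of]
    change (1 : ℤ) = γ 0 0 * γ 1 1 - γ 0 1 * γ 1 0 at hdet
    rw [hc] at hdet
    linarith⟩

theorem heckeDiagMatrix_mul_mapGL' (N : ℕ) (hN : N ≠ 0) (γ : SL(2, ℤ)) (c : ℤ)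
    (hc : γ 1 0 = N * c) :
    heckeDiagMatrix N * (Matrix.SpecialLinearGroup.mapGL ℝ γ) =
      (Matrix.SpecialLinearGroup.mapGL ℝ (conjD N γ c hc)) * heckeDiagMatrix N := by
  apply Units.ext
  rw [Units.val_mul, Units.val_mul, val_heckeDiagMatrix hN]
  ext i j
  rw [Matrix.mul_apply, Matrix.mul_apply, Fin.sum_univ_two, Fin.sum_univ_two]
  simp only [mapGL_val_apply']
  fin_cases i <;> fin_cases j <;>
  simp [conjD, hc] <;> ring

theorem D2_conjD_slash (p : ℕ) (hp : p ≠ 0) (γ : SL(2, ℤ)) (c : ℤ) (hc : γ 1 0 = p * c) :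
    D2 (conjD p γ c hc) ∣[(2 : ℤ)] heckeDiagMatrix p = D2 γ := by
  have hp' : (p : ℂ) ≠ 0 := by exact_mod_cast hp
  funext z
  rw [slash_heckeDiagMatrix_apply 2 hp]
  simp only [D2, denom, coe_heckeDiagMatrix_smul hp]
  simp [conjD, hc]
  rw [show (c : ℂ) * ((p : ℂ) * (z : ℂ)) + ((γ 1 1 : ℤ) : ℂ) = (p : ℂ) * c * z + ((γ 1 1 : ℤ) : ℂ) by ring]
  ring

theorem sub_slash' {G : Type*} [Monoid G] [SlashAction ℤ G (ℍ → ℂ)] (k : ℤ) (g : G)
    (a b : ℍ → ℂ) : (a - b) ∣[k] g = a ∣[k] g - b ∣[k] g := by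
  rw [sub_eq_add_neg, SlashAction.add_slash, SlashAction.neg_slash, ← sub_eq_add_neg]

theorem SL_slash_mapGL (k : ℤ) (f : ℍ → ℂ) (γ : SL(2, ℤ)) :
    f ∣[k] γ = f ∣[k] (Matrix.SpecialLinearGroup.mapGL ℝ γ) := rfl

theorem E2_diag_slash (p : ℕ) (hp : p ≠ 0) (γ : SL(2, ℤ)) (c : ℤ) (hc : γ 1 0 = p * c) :
    (E2 ∣[(2 : ℤ)] heckeDiagMatrix p) ∣[(2 : ℤ)] γ =
      E2 ∣[(2 : ℤ)] heckeDiagMatrix p - (1 / (2 * riemannZeta 2)) • D2 γ := by
  rw [SL_slash_mapGL, ← SlashAction.slash_mul, heckeDiagMatrix_mul_mapGL' p hp γ c hc,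
    SlashAction.slash_mul, ← SL_slash_mapGL, E2_slash_action, sub_slash',
    ModularForm.smul_slash, σ_heckeDiagMatrix, D2_conjD_slash p hp γ c hc]
  rfl

theorem eisFun_slash_of_dvd (p : ℕ) (hp : p ≠ 0) (γ : SL(2, ℤ)) (hγ : (p : ℤ) ∣ γ 1 0) :
    eisFun p ∣[(2 : ℤ)] γ = eisFun p := by
  obtain ⟨c, hc⟩ := hγ
  rw [eisFun, ModularForm.SL_smul_slash, sub_slash', E2_diag_slash p hp γ c hc,
    E2_slash_action]
  congr 1
  abel


open ModularGroup in
theorem heckeDiagMatrix_mul_S (p : ℕ) (hp : p ≠ 0) :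
    heckeDiagMatrix p * (Matrix.SpecialLinearGroup.mapGL ℝ S) =
      (Matrix.SpecialLinearGroup.mapGL ℝ S) * heckeMatrix p 0 := by
  apply Units.ext
  rw [Units.val_mul, Units.val_mul, val_heckeDiagMatrix hp, val_heckeMatrix hp]
  ext i j
  rw [Matrix.mul_apply, Matrix.mul_apply, Fin.sum_univ_two, Fin.sum_univ_two]
  simp only [mapGL_val_apply']
  fin_cases i <;> fin_cases j <;> simp [ModularGroup.coe_S]

open ModularGroup in
theorem heckeMatrix_zero_mul_T_zpow (p : ℕ) (hp : p ≠ 0) (j : ℕ) :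
    heckeMatrix p 0 * (Matrix.SpecialLinearGroup.mapGL ℝ (T ^ (j : ℤ))) = heckeMatrix p j := by
  apply Units.ext
  rw [Units.val_mul, val_heckeMatrix hp, val_heckeMatrix hp]
  ext i k
  rw [Matrix.mul_apply, Fin.sum_univ_two]
  simp only [mapGL_val_apply']
  have h := ModularGroup.coe_T_zpow (j : ℤ)
  have h' : ∀ a b, (T ^ (j : ℤ) : SL(2, ℤ)) a b = (!![1, (j : ℤ); 0, 1] : Matrix _ _ ℤ) a b := by
    intro a b
    exact congrFun (congrFun h a) b
  simp only [h']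
  fin_cases i <;> fin_cases k <;> simp

theorem slash_diag_heckeMatrix_zero (p : ℕ) (hp : p ≠ 0) (f : ℍ → ℂ) :
    (f ∣[(2 : ℤ)] heckeDiagMatrix p) ∣[(2 : ℤ)] heckeMatrix p 0 = f := by
  have hp' : (p : ℂ) ≠ 0 := by exact_mod_cast hp
  funext z
  rw [slash_heckeMatrix_apply 2 hp, slash_heckeDiagMatrix_apply 2 hp]
  have : heckeDiagMatrix p • heckeMatrix p 0 • z = z := by
    apply UpperHalfPlane.ext
    rw [coe_heckeDiagMatrix_smul hp, coe_heckeMatrix_smul hp]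
    field_simp
    simp
  rw [this]
  norm_num
  field_simp

open ModularGroup in
theorem D2_S_slash_heckeMatrix_zero (p : ℕ) (hp : p ≠ 0) :
    D2 S ∣[(2 : ℤ)] heckeMatrix p 0 = D2 S := by
  have hp' : (p : ℂ) ≠ 0 := by exact_mod_cast hp
  funext z
  rw [slash_heckeMatrix_apply 2 hp, D2_S, D2_S, coe_heckeMatrix_smul hp]
  have hz : (z : ℂ) ≠ 0 := UpperHalfPlane.ne_zero z
  field_simp
  simp [hz]

open ModularGroup in
theorem eisFun_slash_S (p : ℕ) (hp : p ≠ 0) :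
    eisFun p ∣[(2 : ℤ)] S = - (eisFun p ∣[(2 : ℤ)] heckeMatrix p 0) := by
  have h1 : (E2 ∣[(2 : ℤ)] heckeDiagMatrix p) ∣[(2 : ℤ)] S =
      E2 ∣[(2 : ℤ)] heckeMatrix p 0 - (1 / (2 * riemannZeta 2)) • D2 S := by
    rw [SL_slash_mapGL, ← SlashAction.slash_mul, heckeDiagMatrix_mul_S p hp,
      SlashAction.slash_mul, ← SL_slash_mapGL, E2_slash_action, sub_slash',
      ModularForm.smul_slash, σ_heckeMatrix, D2_S_slash_heckeMatrix_zero p hp]
    rfl
  rw [eisFun, ModularForm.SL_smul_slash, sub_slash', h1, E2_slash_action,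
    ModularForm.smul_slash, σ_heckeMatrix, sub_slash', slash_diag_heckeMatrix_zero p hp]
  simp only [ContinuousAlgEquiv.refl_apply]
  rw [← smul_neg]
  congr 1
  abel

open ModularGroup in
theorem eisFun_slash_S_mul_T_zpow (p : ℕ) (hp : p ≠ 0) (j : ℕ) :
    eisFun p ∣[(2 : ℤ)] (S * T ^ (j : ℤ)) = - (eisFun p ∣[(2 : ℤ)] heckeMatrix p j) := by
  rw [SlashAction.slash_mul, eisFun_slash_S p hp, SlashAction.neg_slash, SL_slash_mapGL,
    ← SlashAction.slash_mul, heckeMatrix_zero_mul_T_zpow p hp]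


open ModularGroup in
theorem S_mul_T_zpow_coe (j : ℤ) :
    ((S * T ^ j : SL(2, ℤ)) : Matrix (Fin 2) (Fin 2) ℤ) = !![0, -1; 1, j] := by
  rw [Matrix.SpecialLinearGroup.coe_mul, ModularGroup.coe_S]
  have h := ModularGroup.coe_T_zpow j
  change ((T ^ j : SL(2, ℤ)) : Matrix (Fin 2) (Fin 2) ℤ) = _ at h
  rw [h, Matrix.mul_fin_two]
  simp

open ModularGroup in
theorem exists_Gamma0_mul_S_T (p : ℕ) [Fact p.Prime] (γ : SL(2, ℤ)) (h : ¬ (p : ℤ) ∣ γ 1 0) :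
    ∃ (γ₀ : SL(2, ℤ)) (j : ℕ), j < p ∧ (p : ℤ) ∣ γ₀ 1 0 ∧ γ = γ₀ * (S * T ^ (j : ℤ)) := by
  have hc : ((γ 1 0 : ℤ) : ZMod p) ≠ 0 := by
    rwa [Ne, ZMod.intCast_zmod_eq_zero_iff_dvd]
  set j : ℕ := (((γ 1 1 : ℤ) : ZMod p) * ((γ 1 0 : ℤ) : ZMod p)⁻¹).val with hj
  have hjp : j < p := ZMod.val_lt _
  have hjc : ((j : ℕ) : ZMod p) = ((γ 1 1 : ℤ) : ZMod p) * ((γ 1 0 : ℤ) : ZMod p)⁻¹ := by
    rw [hj, ZMod.natCast_zmod_val]
  refine ⟨γ * (S * T ^ (j : ℤ))⁻¹, j, hjp, ?_, by group⟩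
  have h1 : ((γ * (S * T ^ (j : ℤ))⁻¹ : SL(2, ℤ))) 1 0 = γ 1 0 * j - γ 1 1 := by
    rw [Matrix.SpecialLinearGroup.coe_mul, Matrix.SpecialLinearGroup.coe_inv, S_mul_T_zpow_coe,
      Matrix.adjugate_fin_two_of, Matrix.mul_apply, Fin.sum_univ_two]
    simp
    ring
  rw [h1, ← ZMod.intCast_zmod_eq_zero_iff_dvd]
  push_cast
  rw [hjc]
  field_simp
  ring

theorem isBoundedAtImInfty_eisFun (p : ℕ) (hp : p ≠ 0) : IsBoundedAtImInfty (eisFun p) := by
  have h1 : IsBoundedAtImInfty (E2 ∣[(2 : ℤ)] heckeDiagMatrix p) :=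
    IsBoundedAtImInfty.slash 2 (by simp [val_heckeDiagMatrix hp]) isBoundedAtImInfty_E2
  have h2 : IsBoundedAtImInfty (E2 ∣[(2 : ℤ)] heckeDiagMatrix p - E2) := h1.sub isBoundedAtImInfty_E2
  exact h2.const_smul_left _

theorem isBoundedAtImInfty_eisFun_slash (p : ℕ) [Fact p.Prime] (γ : SL(2, ℤ)) :
    IsBoundedAtImInfty (eisFun p ∣[(2 : ℤ)] γ) := by
  have hp : p ≠ 0 := (Fact.out : p.Prime).ne_zero
  by_cases h : (p : ℤ) ∣ γ 1 0
  · rw [eisFun_slash_of_dvd p hp γ h]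
    exact isBoundedAtImInfty_eisFun p hp
  · obtain ⟨γ₀, j, -, h0, rfl⟩ := exists_Gamma0_mul_S_T p γ h
    rw [SlashAction.slash_mul, eisFun_slash_of_dvd p hp γ₀ h0, eisFun_slash_S_mul_T_zpow p hp]
    have : IsBoundedAtImInfty (eisFun p ∣[(2 : ℤ)] heckeMatrix p j) :=
      IsBoundedAtImInfty.slash 2 (by simp [val_heckeMatrix hp]) (isBoundedAtImInfty_eisFun p hp)
    exact this.neg_left

theorem mdifferentiable_eisFun (p : ℕ) : MDiff (eisFun p) := by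
  have h1 : MDiff (E2 ∣[(2 : ℤ)] heckeDiagMatrix p) := E2_mdifferentiable.slash 2 _
  exact (h1.sub E2_mdifferentiable).const_smul _

/-- The Eisenstein series `e'` as a modular form of weight 2 on `Γ₀(p)`. -/
def eisForm (p : ℕ) [Fact p.Prime] : ModularForm (Gamma0 p) 2 where
  toFun := eisFun p
  slash_action_eq' := by
    rintro _ ⟨γ, hγ, rfl⟩
    have hγ' : (p : ℤ) ∣ γ 1 0 := by
      have := (Gamma0_mem).mp hγ
      exact (ZMod.intCast_zmod_eq_zero_iff_dvd _ _).mp this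
    exact eisFun_slash_of_dvd p (Fact.out : p.Prime).ne_zero γ hγ'
  holo' := mdifferentiable_eisFun p
  bdd_at_cusps' := by
    intro c hc
    rw [Subgroup.IsArithmetic.isCusp_iff_isCusp_SL2Z] at hc
    rw [OnePoint.isBoundedAt_iff_forall_SL2Z hc]
    intro γ _
    exact isBoundedAtImInfty_eisFun_slash p γ

@[simp] theorem coe_eisForm (p : ℕ) [Fact p.Prime] : ⇑(eisForm p) = eisFun p := rfl


/-- `σ'(n) = σ(n) - p σ(n/p)`. -/
theorem sum_divisors_not_dvd (p : ℕ) (hp : p ≠ 0) (n : ℕ) :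
    ((∑ d ∈ n.divisors with ¬ p ∣ d, (d : ℤ) : ℤ)) =
      (ArithmeticFunction.sigma 1 n : ℤ) -
        (if p ∣ n then (p : ℤ) * (ArithmeticFunction.sigma 1 (n / p) : ℤ) else 0) := by
  have h1 : (ArithmeticFunction.sigma 1 n : ℤ) = ∑ d ∈ n.divisors, (d : ℤ) := by
    rw [ArithmeticFunction.sigma_one_apply]
    push_cast
    rfl
  have h2 : ∑ d ∈ n.divisors, (d : ℤ) = (∑ d ∈ n.divisors with p ∣ d, (d : ℤ)) +
      ∑ d ∈ n.divisors with ¬ p ∣ d, (d : ℤ) :=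
    (Finset.sum_filter_add_sum_filter_not _ _ _).symm
  have h3 : (∑ d ∈ n.divisors with p ∣ d, (d : ℤ)) =
      (if p ∣ n then (p : ℤ) * (ArithmeticFunction.sigma 1 (n / p) : ℤ) else 0) := by
    split_ifs with hpn
    · obtain ⟨m, rfl⟩ := hpn
      rw [Nat.mul_div_cancel_left _ (Nat.pos_of_ne_zero hp), ArithmeticFunction.sigma_one_apply]
      push_cast
      rw [Finset.mul_sum]
      symm
      refine Finset.sum_bij (fun d _ => p * d) ?_ ?_ ?_ ?_
      · intro d hd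
        rw [Nat.mem_divisors] at hd
        simp only [Finset.mem_filter, Nat.mem_divisors]
        exact ⟨⟨Nat.mul_dvd_mul_left p hd.1, Nat.mul_ne_zero hp hd.2⟩, Dvd.intro _ rfl⟩
      · intro a _ b _ hab
        exact Nat.eq_of_mul_eq_mul_left (Nat.pos_of_ne_zero hp) hab
      · intro d hd
        simp only [Finset.mem_filter, Nat.mem_divisors] at hd
        obtain ⟨⟨h1, h2⟩, e, rfl⟩ := hd
        refine ⟨e, ?_, rfl⟩
        rw [Nat.mem_divisors]
        exact ⟨(Nat.mul_dvd_mul_iff_left (Nat.pos_of_ne_zero hp)).mp h1, fun h => h2 (by simp [h])⟩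
      · intro d _
        push_cast
        ring
    · apply Finset.sum_eq_zero
      intro d hd
      simp only [Finset.mem_filter, Nat.mem_divisors] at hd
      exact absurd (hd.2.trans hd.1.1) hpn
  rw [h1, h2, h3]
  ring

/-- coefficients of `E₂`. -/
def e2Coeff (m : ℕ) : ℂ := if m = 0 then 1 else -24 * (ArithmeticFunction.sigma 1 m : ℂ)

theorem hasSum_E2_qParam (z : ℍ) :
    HasSum (fun m : ℕ ↦ e2Coeff m • Function.Periodic.qParam 1 z ^ m) (E2 z) := by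
  simpa only [Function.Periodic.qParam, Complex.ofReal_one, div_one, e2Coeff] using
    hasSum_qExpansion_E2 (z := z)

theorem qParam_heckeDiagMatrix_smul' (p : ℕ) (hp : p ≠ 0) (z : ℍ) :
    Function.Periodic.qParam 1 (heckeDiagMatrix p • z : ℍ) = Function.Periodic.qParam 1 z ^ p := by
  rw [coe_heckeDiagMatrix_smul hp, Function.Periodic.qParam, Function.Periodic.qParam,
    ← Complex.exp_nat_mul]
  congr 1
  ring

theorem hasSum_E2_diag (p : ℕ) (hp : p ≠ 0) (z : ℍ) :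
    HasSum (fun n : ℕ ↦ (if p ∣ n then e2Coeff (n / p) else 0) • Function.Periodic.qParam 1 z ^ n)
      (E2 (heckeDiagMatrix p • z)) := by
  have h := hasSum_E2_qParam (heckeDiagMatrix p • z)
  rw [qParam_heckeDiagMatrix_smul' p hp] at h
  have hinj : Function.Injective (fun m : ℕ => p * m) := fun a b hab =>
    Nat.eq_of_mul_eq_mul_left (Nat.pos_of_ne_zero hp) hab
  rw [← hinj.hasSum_iff]
  · convert h using 2 with m
    simp [Nat.mul_div_cancel_left _ (Nat.pos_of_ne_zero hp), pow_mul]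
  · intro n hn
    have : ¬ p ∣ n := fun ⟨m, hm⟩ => hn ⟨m, hm.symm⟩
    simp [this]

/-- coefficients of `e'`. -/
def eisCoeff (p n : ℕ) : ℂ :=
  if n = 0 then ((p : ℂ) - 1) / 24 else ((∑ d ∈ n.divisors with ¬ p ∣ d, (d : ℤ) : ℤ) : ℂ)

theorem eisCoeff_eq (p : ℕ) (hp : p ≠ 0) (n : ℕ) :
    eisCoeff p n = ((p : ℂ) * (if p ∣ n then e2Coeff (n / p) else 0) - e2Coeff n) / 24 := by
  rcases eq_or_ne n 0 with rfl | hn
  · simp [eisCoeff, e2Coeff]
  · have h0 : e2Coeff n = -24 * (ArithmeticFunction.sigma 1 n : ℂ) := by rw [e2Coeff, if_neg hn]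
    rw [eisCoeff, if_neg hn, sum_divisors_not_dvd p hp n, h0]
    split_ifs with hpn
    · have : n / p ≠ 0 := by
        obtain ⟨m, rfl⟩ := hpn
        rw [Nat.mul_div_cancel_left _ (Nat.pos_of_ne_zero hp)]
        rintro rfl
        simp at hn
      rw [e2Coeff, if_neg this]
      push_cast
      ring
    · push_cast
      ring

theorem hasSum_eisFun (p : ℕ) (hp : p ≠ 0) (z : ℍ) :
    HasSum (fun n : ℕ ↦ eisCoeff p n • Function.Periodic.qParam 1 z ^ n) (eisFun p z) := by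
  rw [eisFun_apply hp]
  have h := (((hasSum_E2_diag p hp z).mul_left (p : ℂ)).sub (hasSum_E2_qParam z)).div_const 24
  have h2 : (fun n : ℕ ↦ eisCoeff p n • Function.Periodic.qParam 1 z ^ n) = (fun i =>
      (↑p * (if p ∣ i then e2Coeff (i / p) else 0) • Function.Periodic.qParam 1 ↑z ^ i -
          e2Coeff i • Function.Periodic.qParam 1 ↑z ^ i) / 24) := by
    funext n
    rw [eisCoeff_eq p hp]
    simp only [smul_eq_mul]
    ring
  rw [h2]
  exact h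

theorem qExpansion_eisForm_coeff (p : ℕ) [Fact p.Prime] (n : ℕ) :
    (qExpansion 1 (eisForm p)).coeff n = eisCoeff p n :=
  (ModularFormClass.qExpansion_coeff_unique (f := eisForm p) one_pos
    (one_mem_strictPeriods_Gamma0 p) (hasSum_eisFun p (Fact.out : p.Prime).ne_zero) n).symm

theorem qCoeff_eisForm_zero (p : ℕ) [Fact p.Prime] :
    ModularFormClass.qCoeff (eisForm p) 0 = ((p : ℂ) - 1) / 24 := by
  rw [ModularFormClass.qCoeff, qExpansion_eisForm_coeff, eisCoeff, if_pos rfl]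

theorem qCoeff_eisForm (p : ℕ) [Fact p.Prime] {k : ℕ} (hk : 1 ≤ k) :
    ModularFormClass.qCoeff (eisForm p) k =
      ((∑ d ∈ k.divisors with ¬ p ∣ d, (d : ℤ) : ℤ) : ℂ) := by
  rw [ModularFormClass.qCoeff, qExpansion_eisForm_coeff, eisCoeff, if_neg (by omega)]

end
end Fermat.Agent.S16
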