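import Fermat.Agent.S16.P1Family
import Fermat.Agent.S16.Sigma
import Fermat.Agent.S16.Eis

/-!
# S16, package PKG-6: the Eisenstein series `e' = (p E₂(p z) - E₂(z)) / 24` of weight 2 on `Γ₀(p)`

The construction is in `Fermat/Agent/S16/Eis.lean` (`eisForm`); this file is a thin wrapper.
-/

set_option autoImplicit false

namespace Fermat.Agent.S16

open UpperHalfPlane ModularForm CongruenceSubgroup
open scoped MatrixGroups ModularForm Manifold

theorem exists_eisP (p : ℕ) [Fact p.Prime] :
    ∃ E : ModularForm (Gamma0 p) 2,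
      (qExpansion 1 E).coeff 0 = ((p : ℂ) - 1) / 24 ∧
      ∀ n : ℕ, 1 ≤ n → (qExpansion 1 E).coeff n = (sigmaP p n : ℂ) :=
  ⟨eisForm p, qCoeff_eisForm_zero p, fun _ hn => qCoeff_eisForm p hn⟩

end Fermat.Agent.S16
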